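/-
S48-(N5) COTSUM (helper52): Eisenstein's finite cotangent sum.

For `M ≥ 2`, `ζ = exp(2πi/M)` and `0 < b < M`:
  `∑_{a=1}^{M-1} ζ^{-ab} cot(π a / M) = -i (M - 2b)`.
Consequence: for `f : ℕ → ℂ` with `f 0 = 0`,
  `∑_a [(1/M) ∑_b f(b) ζ^{-ab}] π cot(π a/M) = -(π i / M) (M ∑ f(b) - 2 ∑ f(b) b)`,
which for a nontrivial Dirichlet character is `2πi · (1/M) ∑_b χ(b) b = 2πi B_{1,χ}`-type.
Mathlib only.
-/
import Mathlib

namespace Fermat.Agent.DS.Eis1.CotSum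

open Finset Complex

section Algebraic

variable {K : Type*} [Field K]

/-- `T ζ M b = ∑_{a=1}^{M-1} ζ^{ab} / (ζ^a - 1)`. -/
noncomputable def tSum (ζ : K) (M b : ℕ) : K :=
  ∑ a ∈ Ico 1 M, ζ ^ (a * b) / (ζ ^ a - 1)

theorem pow_sub_one_ne_zero {ζ : K} {M : ℕ} (hζ : IsPrimitiveRoot ζ M) {a : ℕ}
    (ha : a ∈ Ico 1 M) : ζ ^ a - 1 ≠ 0 := by
  rw [mem_Ico] at ha
  intro h
  have h1 : ζ ^ a = 1 := sub_eq_zero.mp h
  have := (hζ.pow_eq_one_iff_dvd a).mp h1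
  have := Nat.le_of_dvd (by omega) this
  omega

/-- Geometric sum of powers of a primitive root over `1 ≤ a < M`. -/
theorem sum_Ico_pow_mul {ζ : K} {M : ℕ} (hζ : IsPrimitiveRoot ζ M) (hM : 1 ≤ M) (b : ℕ) :
    ∑ a ∈ Ico 1 M, ζ ^ (a * b) = (if M ∣ b then (M : K) else 0) - 1 := by
  have h0 : ∑ a ∈ range M, ζ ^ (a * b) = if M ∣ b then (M : K) else 0 := by
    split_ifs with h
    · have : ∀ a ∈ range M, ζ ^ (a * b) = 1 := by
        intro a _
        rw [mul_comm, pow_mul, (hζ.pow_eq_one_iff_dvd b).mpr h, one_pow]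
      rw [sum_congr rfl this]; simp
    · have hne : ζ ^ b ≠ 1 := fun h1 => h ((hζ.pow_eq_one_iff_dvd b).mp h1)
      have hgeom : ∑ a ∈ range M, (ζ ^ b) ^ a = ((ζ ^ b) ^ M - 1) / (ζ ^ b - 1) :=
        geom_sum_eq hne M
      have hpow : (ζ ^ b) ^ M = 1 := by
        rw [← pow_mul, mul_comm, pow_mul, hζ.pow_eq_one, one_pow]
      have : ∀ a ∈ range M, ζ ^ (a * b) = (ζ ^ b) ^ a := by
        intro a _; rw [← pow_mul, mul_comm]
      rw [sum_congr rfl this, hgeom, hpow]; simp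
  rw [range_eq_Ico, sum_eq_sum_Ico_succ_bot (by omega)] at h0
  simp only [zero_mul, pow_zero, zero_add] at h0
  rw [← h0]; ring

theorem tSum_succ {ζ : K} {M : ℕ} (hζ : IsPrimitiveRoot ζ M) (hM : 1 ≤ M) (b : ℕ) :
    tSum ζ M (b + 1) = tSum ζ M b + ((if M ∣ b then (M : K) else 0) - 1) := by
  rw [← sum_Ico_pow_mul hζ hM b, tSum, tSum, ← sum_add_distrib]
  refine sum_congr rfl fun a ha => ?_
  have hne := pow_sub_one_ne_zero hζ ha
  field_simp
  ring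

theorem two_mul_tSum_zero {ζ : K} {M : ℕ} (hζ : IsPrimitiveRoot ζ M) (hM : 1 ≤ M) :
    2 * tSum ζ M 0 = -((M : K) - 1) := by
  have hrefl : ∑ a ∈ Ico 1 M, (1 : K) / (ζ ^ (M - a) - 1) = ∑ a ∈ Ico 1 M, 1 / (ζ ^ a - 1) := by
    have := sum_Ico_reflect (fun j => (1 : K) / (ζ ^ j - 1)) 1 (m := M) (n := M) (by omega)
    simpa using this
  have hT : tSum ζ M 0 = ∑ a ∈ Ico 1 M, 1 / (ζ ^ a - 1) := by
    simp [tSum]
  have hpair : ∀ a ∈ Ico 1 M, (1 : K) / (ζ ^ a - 1) + 1 / (ζ ^ (M - a) - 1) = -1 := by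
    intro a ha
    have hne := pow_sub_one_ne_zero hζ ha
    have ha' := mem_Ico.mp ha
    have hmul : ζ ^ a * ζ ^ (M - a) = 1 := by
      rw [← pow_add, Nat.add_sub_cancel' ha'.2.le, hζ.pow_eq_one]
    have hz : ζ ^ a ≠ 0 := fun h => by rw [h, zero_mul] at hmul; exact zero_ne_one hmul
    have hinv : ζ ^ (M - a) = (ζ ^ a)⁻¹ := eq_inv_of_mul_eq_one_right hmul
    rw [hinv]
    have h2 : (1 : K) - ζ ^ a ≠ 0 := fun h => hne (by rw [← neg_sub, h, neg_zero])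
    have h3 : (ζ ^ a)⁻¹ - 1 = (1 - ζ ^ a) / ζ ^ a := by
      field_simp
    rw [h3, one_div_div, eq_neg_iff_add_eq_zero]
    have h4 : ζ ^ a - 1 = -(1 - ζ ^ a) := by ring
    rw [h4]
    field_simp
    ring
  calc 2 * tSum ζ M 0 = tSum ζ M 0 + tSum ζ M 0 := by ring
    _ = ∑ a ∈ Ico 1 M, 1 / (ζ ^ a - 1) + ∑ a ∈ Ico 1 M, (1 : K) / (ζ ^ (M - a) - 1) := by
        rw [hT, hrefl]
    _ = ∑ a ∈ Ico 1 M, (-1 : K) := by
        rw [← sum_add_distrib]; exact sum_congr rfl hpair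
    _ = -((M : K) - 1) := by
        simp only [sum_const, Nat.card_Ico, nsmul_eq_mul]
        rw [Nat.cast_sub hM]; simp

/-- `2 T(b) = (M + 1) - 2 b` for `1 ≤ b ≤ M`. -/
theorem two_mul_tSum {ζ : K} {M : ℕ} (hζ : IsPrimitiveRoot ζ M) (hM : 1 ≤ M) :
    ∀ b : ℕ, 1 ≤ b → b ≤ M → 2 * tSum ζ M b = ((M : K) + 1) - 2 * (b : K) := by
  intro b hb1
  induction b, hb1 using Nat.le_induction with
  | base =>
    intro _
    rw [tSum_succ hζ hM 0, mul_add, two_mul_tSum_zero hζ hM]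
    simp only [dvd_zero, if_true]
    push_cast; ring
  | succ b hb ih =>
    intro hbM
    have hnd : ¬ M ∣ b := fun h => by
      have := Nat.le_of_dvd (by omega) h
      omega
    rw [tSum_succ hζ hM b, mul_add, ih (by omega), if_neg hnd]
    push_cast; ring

/-- Algebraic form of Eisenstein's cotangent sum:
`∑_{a=1}^{M-1} ζ^{a(M-b)} (ζ^a + 1)/(ζ^a - 1) = 2b - M` for `0 < b < M`. -/
theorem sum_pow_mul_ratio {ζ : K} {M : ℕ} (hζ : IsPrimitiveRoot ζ M) (h2 : (2 : K) ≠ 0)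
    {b : ℕ} (hb0 : 0 < b) (hbM : b < M) :
    ∑ a ∈ Ico 1 M, ζ ^ (a * (M - b)) * ((ζ ^ a + 1) / (ζ ^ a - 1)) = 2 * (b : K) - (M : K) := by
  have hM : 1 ≤ M := by omega
  have hsplit : ∑ a ∈ Ico 1 M, ζ ^ (a * (M - b)) * ((ζ ^ a + 1) / (ζ ^ a - 1))
      = tSum ζ M (M - b + 1) + tSum ζ M (M - b) := by
    rw [tSum, tSum, ← sum_add_distrib]
    refine sum_congr rfl fun a ha => ?_
    have hne := pow_sub_one_ne_zero hζ ha
    field_simp
    ring
  have e1 := two_mul_tSum hζ hM (M - b + 1) (by omega) (by omega)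
  have e2 := two_mul_tSum hζ hM (M - b) (by omega) (by omega)
  have hc1 : ((M - b + 1 : ℕ) : K) = (M : K) - (b : K) + 1 := by
    rw [Nat.cast_add, Nat.cast_sub hbM.le]; simp
  have hc2 : ((M - b : ℕ) : K) = (M : K) - (b : K) := Nat.cast_sub hbM.le
  rw [hc1] at e1
  rw [hc2] at e2
  rw [hsplit]
  apply mul_left_cancel₀ h2
  rw [mul_add, e1, e2]; ring

end Algebraic

section Analytic

open Real

/-- `ζ_M = exp(2πi/M)`. -/
noncomputable def zetaM (M : ℕ) : ℂ := Complex.exp (2 * π * I / M)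

theorem isPrimitiveRoot_zetaM {M : ℕ} (hM : M ≠ 0) : IsPrimitiveRoot (zetaM M) M :=
  Complex.isPrimitiveRoot_exp M hM

theorem zetaM_pow (M a : ℕ) : zetaM M ^ a = Complex.exp (2 * π * I * a / M) := by
  rw [zetaM, ← Complex.exp_nat_mul]; congr 1; ring

/-- `exp(-2πi ab/M) = ζ^{a(M-b)}`. -/
theorem exp_neg_eq_zetaM_pow {M : ℕ} (hM : M ≠ 0) (a : ℕ) {b : ℕ} (hb : b ≤ M) :
    Complex.exp (-(2 * π * I * a * b / M)) = zetaM M ^ (a * (M - b)) := by
  have hM' : (M : ℂ) ≠ 0 := Nat.cast_ne_zero.mpr hM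
  rw [zetaM_pow, Nat.cast_mul, Nat.cast_sub hb]
  have : 2 * π * I * ((a : ℂ) * ((M : ℂ) - b)) / M
      = -(2 * π * I * a * b / M) + a * (2 * π * I) := by
    field_simp; ring
  rw [this, Complex.exp_add, Complex.exp_nat_mul_two_pi_mul_I, mul_one]

/-- `cot(π a/M) = i (ζ^a + 1)/(ζ^a - 1)` for `1 ≤ a < M`. -/
theorem cot_pi_mul_div {M a : ℕ} (ha : a ∈ Ico 1 M) :
    Complex.cot (π * a / M) = I * ((zetaM M ^ a + 1) / (zetaM M ^ a - 1)) := by
  have hM : M ≠ 0 := by have := mem_Ico.mp ha; omega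
  have hne := pow_sub_one_ne_zero (isPrimitiveRoot_zetaM hM) ha
  have hne' : (1 : ℂ) - zetaM M ^ a ≠ 0 := fun h => hne (by rw [← neg_sub, h, neg_zero])
  have h1 : (π : ℂ) * a / M = π * ((a : ℂ) / M) := by ring
  have h2 : 2 * (π : ℂ) * I * ((a : ℂ) / M) = 2 * π * I * a / M := by ring
  rw [h1, Complex.cot_pi_eq_exp_ratio, h2, ← zetaM_pow]
  have hI : (I : ℂ) ≠ 0 := Complex.I_ne_zero
  have h4 : zetaM M ^ a - 1 = -(1 - zetaM M ^ a) := by ring
  rw [h4]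
  field_simp
  rw [Complex.I_sq]; ring

/-- **Eisenstein's cotangent sum**, indexed over `1 ≤ a < M`. -/
theorem cotSum_Ico {M b : ℕ} (hb0 : 0 < b) (hbM : b < M) :
    ∑ a ∈ Ico 1 M, Complex.exp (-(2 * π * I * a * b / M)) * Complex.cot (π * a / M)
      = -I * ((M : ℂ) - 2 * b) := by
  have hM : M ≠ 0 := by omega
  have hζ := isPrimitiveRoot_zetaM hM
  have key := sum_pow_mul_ratio hζ (two_ne_zero) hb0 hbM
  calc ∑ a ∈ Ico 1 M, Complex.exp (-(2 * π * I * a * b / M)) * Complex.cot (π * a / M)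
      = ∑ a ∈ Ico 1 M, I * (zetaM M ^ (a * (M - b)) *
          ((zetaM M ^ a + 1) / (zetaM M ^ a - 1))) := by
        refine sum_congr rfl fun a ha => ?_
        rw [exp_neg_eq_zetaM_pow hM a hbM.le, cot_pi_mul_div ha]; ring
    _ = I * (2 * (b : ℂ) - M) := by rw [← mul_sum, key]
    _ = -I * ((M : ℂ) - 2 * b) := by ring

/-- **Eisenstein's cotangent sum**, indexed over `range M` (the `a = 0` term vanishes since
`Complex.cot 0 = 0`). -/
theorem cotSum_range {M b : ℕ} (hb0 : 0 < b) (hbM : b < M) :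
    ∑ a ∈ range M, Complex.exp (-(2 * π * I * a * b / M)) * Complex.cot (π * a / M)
      = -I * ((M : ℂ) - 2 * b) := by
  rw [range_eq_Ico, sum_eq_sum_Ico_succ_bot (by omega), cotSum_Ico hb0 hbM]
  simp [Complex.cot]

/-- The `b = 0` sum vanishes: `∑_a cot(π a/M) = 0`. -/
theorem cotSum_zero (M : ℕ) : ∑ a ∈ range M, Complex.cot (π * a / M) = 0 := by
  rcases Nat.eq_zero_or_pos M with rfl | hM
  · simp
  have h0 : ∑ a ∈ range M, Complex.cot (π * a / M) = ∑ a ∈ Ico 1 M, Complex.cot (π * a / M) := by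
    rw [range_eq_Ico, sum_eq_sum_Ico_succ_bot hM]; simp [Complex.cot]
  have hrefl : ∑ a ∈ Ico 1 M, Complex.cot (π * ((M - a : ℕ) : ℂ) / M)
      = ∑ a ∈ Ico 1 M, Complex.cot (π * a / M) := by
    have := sum_Ico_reflect (fun j : ℕ => Complex.cot (π * (j : ℂ) / M)) 1 (m := M) (n := M)
      (by omega)
    simpa using this
  have hneg : ∀ a ∈ Ico 1 M, Complex.cot (π * ((M - a : ℕ) : ℂ) / M)
      = -Complex.cot (π * a / M) := by
    intro a ha
    have ha' := mem_Ico.mp ha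
    have hM' : (M : ℂ) ≠ 0 := Nat.cast_ne_zero.mpr (by omega)
    rw [Nat.cast_sub ha'.2.le]
    have : (π : ℂ) * ((M : ℂ) - a) / M = -(π * a / M) + π := by field_simp; ring
    rw [this, Complex.cot, Complex.cot, Complex.cos_add_pi, Complex.sin_add_pi,
      Complex.cos_neg, Complex.sin_neg]
    ring
  have : ∑ a ∈ Ico 1 M, Complex.cot (π * a / M) = -∑ a ∈ Ico 1 M, Complex.cot (π * a / M) := by
    conv_lhs => rw [← hrefl]
    rw [sum_congr rfl hneg, sum_neg_distrib]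
  rw [h0]
  have h2 : (2 : ℂ) * ∑ a ∈ Ico 1 M, Complex.cot (π * a / M) = 0 := by
    rw [two_mul]; nth_rewrite 1 [this]; ring
  exact (mul_eq_zero.mp h2).resolve_left two_ne_zero

/-- Fourier form: for `f : ℕ → ℂ` with `f 0 = 0`,
`∑_a [(1/M) ∑_b f(b) ζ^{-ab}] · π cot(π a/M) = -(π i/M) (M ∑_b f(b) - 2 ∑_b f(b) b)`. -/
theorem cotSum_fourier (M : ℕ) (f : ℕ → ℂ) (hf0 : f 0 = 0) :
    ∑ a ∈ range M, ((1 / (M : ℂ)) * ∑ b ∈ range M, f b * Complex.exp (-(2 * π * I * a * b / M)))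
        * (π * Complex.cot (π * a / M))
      = -(π * I / M) * ((M : ℂ) * ∑ b ∈ range M, f b - 2 * ∑ b ∈ range M, f b * b) := by
  have hswap : ∑ a ∈ range M,
      ((1 / (M : ℂ)) * ∑ b ∈ range M, f b * Complex.exp (-(2 * π * I * a * b / M)))
        * (π * Complex.cot (π * a / M))
      = (π / M) * ∑ b ∈ range M, f b *
          ∑ a ∈ range M, Complex.exp (-(2 * π * I * a * b / M)) * Complex.cot (π * a / M) := by
    simp_rw [mul_sum, sum_mul]
    rw [sum_comm]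
    refine sum_congr rfl fun b _ => sum_congr rfl fun a _ => ?_
    ring
  rw [hswap]
  have hinner : ∀ b ∈ range M, f b *
      ∑ a ∈ range M, Complex.exp (-(2 * π * I * a * b / M)) * Complex.cot (π * a / M)
      = -I * ((M : ℂ) * f b - 2 * (f b * b)) := by
    intro b hb
    rcases Nat.eq_zero_or_pos b with rfl | hb0
    · simp [hf0]
    · rw [cotSum_range hb0 (mem_range.mp hb)]; ring
  rw [sum_congr rfl hinner, ← mul_sum, sum_sub_distrib, ← mul_sum, ← mul_sum]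
  ring

/-- Fourier form when moreover `∑ f = 0` (e.g. a nontrivial Dirichlet character):
the weighted cotangent sum is `2πi · (1/M) ∑_b f(b) b`. -/
theorem cotSum_fourier_of_sum_eq_zero (M : ℕ) (f : ℕ → ℂ) (hf0 : f 0 = 0)
    (hsum : ∑ b ∈ range M, f b = 0) :
    ∑ a ∈ range M, ((1 / (M : ℂ)) * ∑ b ∈ range M, f b * Complex.exp (-(2 * π * I * a * b / M)))
        * (π * Complex.cot (π * a / M))
      = 2 * π * I * ((1 / (M : ℂ)) * ∑ b ∈ range M, f b * b) := by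
  rw [cotSum_fourier M f hf0, hsum]; ring

end Analytic

section ZModForm

open Real ZMod

variable {M : ℕ} [NeZero M]

/-- Sums over `ZMod M` as sums over `range M`. -/
theorem sum_zmod_eq_sum_range (g : ZMod M → ℂ) :
    ∑ a : ZMod M, g a = ∑ a ∈ range M, g (a : ZMod M) := by
  refine sum_nbij' (fun a => a.val) (fun n => (n : ZMod M)) ?_ ?_ ?_ ?_ ?_
  · intro a _; exact mem_range.mpr (ZMod.val_lt a)
  · intro n _; exact mem_univ _
  · intro a _; exact ZMod.natCast_zmod_val a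
  · intro n hn; exact ZMod.val_natCast_of_lt (mem_range.mp hn)
  · intro a _; rw [ZMod.natCast_zmod_val]

theorem stdAddChar_neg_mul_natCast (a b : ℕ) :
    (ZMod.stdAddChar (N := M) (-(((b : ZMod M)) * (a : ZMod M))) : ℂ)
      = Complex.exp (-(2 * π * I * a * b / M)) := by
  have h : (-(((b : ZMod M)) * (a : ZMod M))) = ((-((b : ℤ) * (a : ℤ)) : ℤ) : ZMod M) := by
    push_cast; ring
  rw [h, ZMod.stdAddChar_coe]
  congr 1
  push_cast; ring

/-- Single-frequency `ZMod` form: for `b ≠ 0` in `ZMod M`,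
`∑_a e(-ab/M) cot(π a/M) = -i (M - 2b)` (representatives `0 ≤ a, b < M`). -/
theorem cotSum_zmod {b : ZMod M} (hb : b ≠ 0) :
    ∑ a : ZMod M, (ZMod.stdAddChar (N := M) (-(a * b)) : ℂ) * Complex.cot (π * (a.val : ℂ) / M)
      = -I * ((M : ℂ) - 2 * (b.val : ℂ)) := by
  have hb0 : 0 < b.val := Nat.pos_of_ne_zero fun h => hb ((ZMod.val_eq_zero b).mp h)
  have key := cotSum_range hb0 (ZMod.val_lt b)
  rw [sum_zmod_eq_sum_range, ← key]
  refine sum_congr rfl fun a ha => ?_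
  rw [ZMod.val_natCast_of_lt (mem_range.mp ha)]
  congr 1
  have : (a : ZMod M) * b = ((b.val : ℕ) : ZMod M) * (a : ZMod M) := by
    rw [ZMod.natCast_zmod_val]; ring
  rw [this, stdAddChar_neg_mul_natCast]

/-- `ZMod` form: for `Φ : ZMod M → ℂ` with `Φ 0 = 0` and `∑ Φ = 0`, with `𝓕` the discrete
Fourier transform `𝓕 Φ a = ∑_b e(-ab/M) Φ(b)`:
`∑_a (1/M) 𝓕Φ(a) · π cot(π a/M) = 2πi · (1/M) ∑_b Φ(b) b` (representatives `0 ≤ a, b < M`). -/
theorem cotSum_dft (Φ : ZMod M → ℂ) (h0 : Φ 0 = 0) (hsum : ∑ b : ZMod M, Φ b = 0) :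
    ∑ a : ZMod M, ((1 / (M : ℂ)) * 𝓕 Φ a) * (π * Complex.cot (π * (a.val : ℂ) / M))
      = 2 * π * I * ((1 / (M : ℂ)) * ∑ b : ZMod M, Φ b * (b.val : ℂ)) := by
  have key := cotSum_fourier_of_sum_eq_zero M (fun n => Φ (n : ZMod M)) (by simpa using h0)
    (by rw [← sum_zmod_eq_sum_range]; exact hsum)
  rw [sum_zmod_eq_sum_range, sum_zmod_eq_sum_range (fun b => Φ b * (b.val : ℂ))]
  have hL : ∀ a ∈ range M,
      ((1 / (M : ℂ)) * 𝓕 Φ (a : ZMod M)) * (π * Complex.cot (π * (((a : ZMod M).val : ℕ) : ℂ) / M))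
      = ((1 / (M : ℂ)) * ∑ b ∈ range M, Φ (b : ZMod M) * Complex.exp (-(2 * π * I * a * b / M)))
        * (π * Complex.cot (π * a / M)) := by
    intro a ha
    rw [ZMod.val_natCast_of_lt (mem_range.mp ha), ZMod.dft_apply, sum_zmod_eq_sum_range]
    congr 2
    refine sum_congr rfl fun b _ => ?_
    rw [stdAddChar_neg_mul_natCast, smul_eq_mul, mul_comm]
  have hR : ∀ b ∈ range M, Φ (b : ZMod M) * (((b : ZMod M).val : ℕ) : ℂ)
      = Φ (b : ZMod M) * (b : ℂ) := by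
    intro b hb
    rw [ZMod.val_natCast_of_lt (mem_range.mp hb)]
  rw [sum_congr rfl hL, sum_congr rfl hR]
  exact key

/-- Dirichlet character form: for a nontrivial Dirichlet character `χ` mod `M`,
`∑_a (1/M) 𝓕χ(a) · π cot(π a/M) = 2πi · (1/M) ∑_b χ(b) b`. -/
theorem cotSum_dirichlet (χ : DirichletCharacter ℂ M) (hχ : χ ≠ 1) :
    ∑ a : ZMod M, ((1 / (M : ℂ)) * 𝓕 (χ : ZMod M → ℂ) a)
        * (π * Complex.cot (π * (a.val : ℂ) / M))
      = 2 * π * I * ((1 / (M : ℂ)) * ∑ b : ZMod M, χ b * (b.val : ℂ)) := by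
  have hM1 : M ≠ 1 := by
    rintro rfl
    exact hχ (DirichletCharacter.level_one χ)
  have : Fact (1 < M) := ⟨by have := NeZero.ne M; omega⟩
  exact cotSum_dft (χ : ZMod M → ℂ) (MulChar.map_nonunit χ not_isUnit_zero)
    (MulChar.sum_eq_zero_of_ne_one hχ)

end ZModForm

end Fermat.Agent.DS.Eis1.CotSum
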