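/-
S48 prep / (N5) (helper86): the Weierstrass zeta function of the lattice `ℤ z + ℤ` as an ABSOLUTELY
convergent sum over `ℤ²`, and its behaviour under `SL(2, ℤ)` (reindexing of the lattice).

  `wzeta u z = 1 / u + ∑' v : Fin 2 → ℤ, u ^ 2 / (ω ^ 2 * (u - ω))`,   `ω = v 0 * z + v 1`

(the summand is `1 / (u - ω) + 1 / ω + u / ω ^ 2`; the term `v = 0` is `0` by `x / 0 = 0`).
-/
import Mathlib

set_option autoImplicit false

noncomputable section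

namespace Fermat.Agent.DS.Eis1

open UpperHalfPlane EisensteinSeries Complex Filter Topology Asymptotics
open scoped MatrixGroups Real

/-- the lattice point `v 0 * z + v 1` -/
def lat (z : ℍ) (v : Fin 2 → ℤ) : ℂ := v 0 * (z : ℂ) + v 1

theorem lat_zero (z : ℍ) : lat z 0 = 0 := by simp [lat]

theorem lat_mk (z : ℍ) (m n : ℤ) : lat z ![m, n] = m * (z : ℂ) + n := by simp [lat]

theorem norm_lat_ge (z : ℍ) (v : Fin 2 → ℤ) : r z * ‖v‖ ≤ ‖lat z v‖ := by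
  by_cases hv : v = 0
  · subst hv; simp [lat]
  · exact r_mul_max_le z hv

theorem lat_ne_zero (z : ℍ) {v : Fin 2 → ℤ} (hv : v ≠ 0) : lat z v ≠ 0 := by
  intro h
  have h1 := norm_lat_ge z v
  rw [h, norm_zero] at h1
  have h2 : 0 < r z * ‖v‖ := mul_pos (r_pos z) (norm_pos_iff.mpr hv)
  linarith

/-- the summand of the zeta function -/
def zetaTerm (u : ℂ) (z : ℍ) (v : Fin 2 → ℤ) : ℂ := u ^ 2 / (lat z v ^ 2 * (u - lat z v))

theorem zetaTerm_zero (u : ℂ) (z : ℍ) : zetaTerm u z 0 = 0 := by simp [zetaTerm, lat_zero]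

theorem zetaTerm_eq (u : ℂ) (z : ℍ) (v : Fin 2 → ℤ) (hω : lat z v ≠ 0) (hu : u ≠ lat z v) :
    zetaTerm u z v = 1 / (u - lat z v) + 1 / lat z v + u / lat z v ^ 2 := by
  have h1 : u - lat z v ≠ 0 := sub_ne_zero.mpr hu
  rw [zetaTerm]
  field_simp
  ring

/-- the basic bound: far away from `u` the summand is `O(‖v‖⁻³)` -/
theorem norm_zetaTerm_le (u : ℂ) (z : ℍ) (v : Fin 2 → ℤ) (hv : 2 * ‖u‖ ≤ r z * ‖v‖) (hv0 : v ≠ 0) :
    ‖zetaTerm u z v‖ ≤ 2 * ‖u‖ ^ 2 * (r z) ^ (-3 : ℝ) * (‖v‖ ^ (3 : ℝ))⁻¹ := by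
  have hr := r_pos z
  have hvpos : 0 < ‖v‖ := norm_pos_iff.mpr hv0
  have h1 : r z * ‖v‖ ≤ ‖lat z v‖ := norm_lat_ge z v
  have hω : 0 < ‖lat z v‖ := lt_of_lt_of_le (mul_pos hr hvpos) h1
  have h2 : ‖lat z v‖ / 2 ≤ ‖u - lat z v‖ := by
    have := norm_sub_norm_le (lat z v) u
    rw [norm_sub_rev] at this
    linarith
  rw [zetaTerm, norm_div, norm_mul, norm_pow, norm_pow]
  have h3 : 0 < ‖lat z v‖ ^ 2 * ‖u - lat z v‖ := by
    apply mul_pos (pow_pos hω 2)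
    linarith [half_pos hω]
  rw [div_le_iff₀ h3]
  have h4 : (r z) ^ (-3 : ℝ) * (‖v‖ ^ (3 : ℝ))⁻¹ = ((r z * ‖v‖) ^ 3)⁻¹ := by
    rw [Real.rpow_neg hr.le, ← mul_inv]
    norm_cast
    rw [mul_pow]
  have h5 : ((r z * ‖v‖) ^ 3)⁻¹ * (‖lat z v‖ ^ 2 * ‖u - lat z v‖) ≥ 1 / 2 := by
    have hp : 0 < (r z * ‖v‖) ^ 3 := pow_pos (mul_pos hr hvpos) 3
    rw [ge_iff_le, inv_mul_eq_div, le_div_iff₀ hp]
    have h6 : (r z * ‖v‖) ^ 3 ≤ ‖lat z v‖ ^ 3 := pow_le_pow_left₀ (mul_pos hr hvpos).le h1 3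
    have h7 : ‖lat z v‖ ^ 3 / 2 ≤ ‖lat z v‖ ^ 2 * ‖u - lat z v‖ := by
      have : ‖lat z v‖ ^ 3 / 2 = ‖lat z v‖ ^ 2 * (‖lat z v‖ / 2) := by ring
      rw [this]
      exact mul_le_mul_of_nonneg_left h2 (pow_pos hω 2).le
    linarith
  have h8 : 0 ≤ ‖u‖ ^ 2 := by positivity
  calc ‖u‖ ^ 2 = 2 * ‖u‖ ^ 2 * (1 / 2) := by ring
    _ ≤ 2 * ‖u‖ ^ 2 * (((r z * ‖v‖) ^ 3)⁻¹ * (‖lat z v‖ ^ 2 * ‖u - lat z v‖)) :=
        mul_le_mul_of_nonneg_left h5 (by positivity)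
    _ = 2 * ‖u‖ ^ 2 * (r z) ^ (-3 : ℝ) * (‖v‖ ^ (3 : ℝ))⁻¹ * (‖lat z v‖ ^ 2 * ‖u - lat z v‖) := by
        rw [← h4]; ring

theorem summable_zetaTerm (u : ℂ) (z : ℍ) : Summable (zetaTerm u z) := by
  apply summable_of_isBigO_rpow_norm (a := 3) (by norm_num)
  rw [isBigO_iff]
  refine ⟨2 * ‖u‖ ^ 2 * (r z) ^ (-3 : ℝ), ?_⟩
  have hfin : {v : Fin 2 → ℤ | ¬ (2 * ‖u‖ ≤ r z * ‖v‖ ∧ v ≠ 0)}.Finite := by
    have hsub : {v : Fin 2 → ℤ | ¬ (2 * ‖u‖ ≤ r z * ‖v‖ ∧ v ≠ 0)} ⊆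
        Metric.closedBall (0 : Fin 2 → ℤ) (2 * ‖u‖ / r z) := by
      intro v hv
      simp only [Set.mem_ofPred_eq, not_and_or, not_le, not_not] at hv
      rw [mem_closedBall_zero_iff]
      rcases hv with hv | hv
      · rw [le_div_iff₀ (r_pos z)]
        linarith [mul_comm (r z) ‖v‖]
      · subst hv
        rw [norm_zero]
        have := r_pos z
        positivity
    exact ((isCompact_closedBall (0 : Fin 2 → ℤ) _).finite_of_discrete).subset hsub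
  filter_upwards [hfin.compl_mem_cofinite] with v hv
  simp only [Set.mem_compl_iff, Set.mem_ofPred_eq, not_not] at hv
  rw [Real.norm_of_nonneg (by positivity)]
  exact norm_zetaTerm_le u z v hv.1 hv.2

/-- **the Weierstrass zeta function** of the lattice `ℤ z + ℤ` -/
def wzeta (u : ℂ) (z : ℍ) : ℂ := 1 / u + ∑' v : Fin 2 → ℤ, zetaTerm u z v

/-! ### Reindexing by `SL(2, ℤ)` -/

/-- right multiplication by `γ ∈ SL(2, ℤ)` as a permutation of `ℤ²` -/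
def vecMulEquiv (γ : SL(2, ℤ)) : (Fin 2 → ℤ) ≃ (Fin 2 → ℤ) where
  toFun v := Matrix.vecMul v (γ : Matrix (Fin 2) (Fin 2) ℤ)
  invFun v := Matrix.vecMul v ((γ⁻¹ : SL(2, ℤ)) : Matrix (Fin 2) (Fin 2) ℤ)
  left_inv v := by
    show Matrix.vecMul (Matrix.vecMul v (γ : Matrix (Fin 2) (Fin 2) ℤ))
      ((γ⁻¹ : SL(2, ℤ)) : Matrix (Fin 2) (Fin 2) ℤ) = v
    rw [Matrix.vecMul_vecMul, ← Matrix.SpecialLinearGroup.coe_mul, mul_inv_cancel,
      Matrix.SpecialLinearGroup.coe_one, Matrix.vecMul_one]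
  right_inv v := by
    show Matrix.vecMul (Matrix.vecMul v ((γ⁻¹ : SL(2, ℤ)) : Matrix (Fin 2) (Fin 2) ℤ))
      (γ : Matrix (Fin 2) (Fin 2) ℤ) = v
    rw [Matrix.vecMul_vecMul, ← Matrix.SpecialLinearGroup.coe_mul, inv_mul_cancel,
      Matrix.SpecialLinearGroup.coe_one, Matrix.vecMul_one]

theorem vecMulEquiv_apply (γ : SL(2, ℤ)) (v : Fin 2 → ℤ) :
    vecMulEquiv γ v = Matrix.vecMul v (γ : Matrix (Fin 2) (Fin 2) ℤ) := rfl

theorem lat_smul (γ : SL(2, ℤ)) (z : ℍ) (v : Fin 2 → ℤ) :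
    lat (γ • z) v = lat z (vecMulEquiv γ v) / denom γ z := by
  have h := eisSummand_SL2_apply (-1) v γ z
  simp only [eisSummand, neg_neg, zpow_one, zpow_neg] at h
  rw [lat, lat, vecMulEquiv_apply, h]
  field_simp

theorem zetaTerm_smul (γ : SL(2, ℤ)) (u : ℂ) (z : ℍ) (v : Fin 2 → ℤ) :
    zetaTerm (u / denom γ z) (γ • z) v = denom γ z * zetaTerm u z (vecMulEquiv γ v) := by
  have hd : denom γ z ≠ 0 := denom_ne_zero γ z
  rw [zetaTerm, zetaTerm, lat_smul]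
  by_cases h1 : lat z (vecMulEquiv γ v) = 0
  · simp [h1]
  by_cases h2 : u - lat z (vecMulEquiv γ v) = 0
  · have : u / denom γ z - lat z (vecMulEquiv γ v) / denom γ z = 0 := by
      rw [← sub_div, h2, zero_div]
    simp [h2, this]
  have h3 : u / denom γ z - lat z (vecMulEquiv γ v) / denom γ z ≠ 0 := by
    rw [← sub_div]
    exact div_ne_zero h2 hd
  field_simp

/-- **homogeneity of `ζ`**: `ζ(u / (c z + d), γ z) = (c z + d) ζ(u, z)` -/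
theorem wzeta_smul (γ : SL(2, ℤ)) (u : ℂ) (z : ℍ) :
    wzeta (u / denom γ z) (γ • z) = denom γ z * wzeta u z := by
  have hd : denom γ z ≠ 0 := denom_ne_zero γ z
  rw [wzeta, wzeta, mul_add, ← tsum_mul_left, ← (vecMulEquiv γ).tsum_eq (fun v => denom γ z * zetaTerm u z v)]
  congr 1
  · by_cases hu : u = 0
    · simp [hu]
    · field_simp
  · exact tsum_congr fun v => zetaTerm_smul γ u z v

end Fermat.Agent.DS.Eis1
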