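/-
S48 prep / (N5) (helper86): the ROW identity for the Weierstrass zeta function

  `ζ(u, z) = G2(z) u + π cot(π u) + π ∑_{m ≥ 1} (cot(π(u - m z)) + cot(π(u + m z)))`

(in limit form, `tendsto_cotPair_sum`), against Mathlib's `EisensteinSeries.G2`, and the
quasi-periods `ζ(u + 1) = ζ(u) + G2`, `ζ(u + z) = ζ(u) + z G2 - 2πi` (Legendre's relation, from the
`S`-homogeneity of `ζ` and Mathlib's `G2_S_transform`).
-/
import Fermat.Agent.DS.Eis1.ZetaDef
set_option autoImplicit false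
noncomputable section
namespace Fermat.Agent.DS.Eis1
open UpperHalfPlane hiding I
open EisensteinSeries Complex Filter Topology Asymptotics SummationFilter
open scoped MatrixGroups Real

local notation "ℂ_ℤ" => Complex.integerComplement

theorem tsum_int_eq_zero_add_tsum_succ {f : ℤ → ℂ} (hf : Summable f) :
    ∑' n, f n = f 0 + ∑' n : ℕ, (f ((n : ℤ) + 1) + f (-((n : ℤ) + 1))) := by
  have h1 := hf.hasSum.nat_add_neg
  have h2 := h1.tsum_eq
  have h3 : Summable (fun n : ℕ => f n + f (-(n : ℤ))) := h1.summable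
  rw [h3.tsum_eq_zero_add] at h2
  simp only [Nat.cast_zero, neg_zero, Nat.cast_add, Nat.cast_one] at h2
  linear_combination (-1 : ℂ) * h2

theorem summable_cot_pair (a b : ℂ) :
    Summable fun n : ℤ => ((a - n) * (b + n))⁻¹ := by
  apply summable_inv_of_isBigO_rpow_inv (a := 2) (by norm_cast)
  have h1 := linear_inv_isBigO_right 1 b
  have h2 := (linear_inv_isBigO_right 1 a).comp_neg_int
  simpa [pow_two] using! h1.mul h2


theorem summable_cot_pair' {a b : ℂ} (ha : a ∈ ℂ_ℤ) (hb : b ∈ ℂ_ℤ) :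
    Summable fun n : ℤ => 1 / (a - n) + 1 / (b + n) := by
  have h := (summable_cot_pair a b).mul_left (a + b)
  refine h.congr fun n => ?_
  have h1 : a - n ≠ 0 := by
    have := integerComplement_add_ne_zero ha (-n)
    simpa [sub_eq_add_neg] using this
  have h2 : b + n ≠ 0 := integerComplement_add_ne_zero hb n
  field_simp
  ring

theorem tsum_cot_pair {a b : ℂ} (ha : a ∈ ℂ_ℤ) (hb : b ∈ ℂ_ℤ) :
    ∑' n : ℤ, (1 / (a - n) + 1 / (b + n)) = π * cot (π * a) + π * cot (π * b) := by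
  rw [tsum_int_eq_zero_add_tsum_succ (summable_cot_pair' ha hb)]
  have h1 := cot_series_rep' ha
  have h2 := cot_series_rep' hb
  have hs1 := summable_cotTerm ha
  have hs2 := summable_cotTerm hb
  have h3 : ∀ n : ℕ, (1 / (a - (((n : ℤ) + 1 : ℤ) : ℂ)) + 1 / (b + (((n : ℤ) + 1 : ℤ) : ℂ))) +
      (1 / (a - ((-((n : ℤ) + 1) : ℤ) : ℂ)) + 1 / (b + ((-((n : ℤ) + 1) : ℤ) : ℂ))) =
      cotTerm a n + cotTerm b n := by
    intro n
    simp only [cotTerm]
    push_cast
    ring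
  simp only [h3]
  rw [hs1.tsum_add hs2]
  simp only [cotTerm] at *
  rw [← h1, ← h2]
  simp
  ring

/-- the `m`-th row of the zeta sum -/
def zrow (u : ℂ) (z : ℍ) (m : ℤ) : ℂ := ∑' n : ℤ, zetaTerm u z ![m, n]

theorem summable_zetaTerm_prod (u : ℂ) (z : ℍ) :
    Summable fun p : ℤ × ℤ => zetaTerm u z ![p.1, p.2] :=
  (finTwoArrowEquiv _).symm.summable_iff.mpr (summable_zetaTerm u z)

theorem tsum_zetaTerm_eq_tsum_zrow (u : ℂ) (z : ℍ) :
    ∑' v, zetaTerm u z v = ∑' m, zrow u z m := by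
  rw [← (finTwoArrowEquiv _).symm.tsum_eq]
  exact Summable.tsum_prod' (summable_zetaTerm_prod u z) ((summable_zetaTerm_prod u z).prod_factor)

theorem summable_zrow (u : ℂ) (z : ℍ) : Summable (zrow u z) :=
  (summable_zetaTerm_prod u z).prod

theorem summable_zetaTerm_row (u : ℂ) (z : ℍ) (m : ℤ) :
    Summable fun n : ℤ => zetaTerm u z ![m, n] :=
  (summable_zetaTerm_prod u z).prod_factor m

theorem mem_integerComplement_of_im_ne_zero {w : ℂ} (hw : w.im ≠ 0) : w ∈ ℂ_ℤ := by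
  rintro ⟨n, hn⟩
  apply hw
  rw [← hn]
  simp

theorem int_mul_mem_integerComplement (z : ℍ) {m : ℤ} (hm : m ≠ 0) : (m : ℂ) * (z : ℂ) ∈ ℂ_ℤ := by
  apply mem_integerComplement_of_im_ne_zero
  simp only [mul_im, intCast_re, intCast_im, zero_mul, add_zero]
  exact mul_ne_zero (by exact_mod_cast hm) z.im_pos.ne'

theorem sub_mem_integerComplement {u : ℂ} {z : ℍ} (hu : ∀ v, u ≠ lat z v) (m : ℤ) :
    u - (m : ℂ) * (z : ℂ) ∈ ℂ_ℤ := by
  rintro ⟨n, hn⟩
  apply hu ![m, n]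
  rw [lat_mk, hn]
  ring


theorem zetaTerm_row_eq {u : ℂ} {z : ℍ} (hu : ∀ v, u ≠ lat z v) {m : ℤ} (hm : m ≠ 0) (n : ℤ) :
    zetaTerm u z ![m, n] = (1 / ((u - (m : ℂ) * (z : ℂ)) - n) + 1 / ((m : ℂ) * (z : ℂ) + n)) +
      u * eisSummand 2 ![m, n] z := by
  have hv : (![m, n] : Fin 2 → ℤ) ≠ 0 := by
    intro h
    apply hm
    simpa using congrFun h 0
  have h1 := lat_ne_zero z hv
  have h2 := hu ![m, n]
  rw [zetaTerm_eq u z _ h1 h2, lat_mk, eisSummand]
  simp only [Fin.isValue, Matrix.cons_val_zero, Matrix.cons_val_one, Matrix.cons_val_fin_one,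
    Int.reduceNeg, zpow_neg]
  rw [lat_mk] at h1
  have h3 : u - ((m : ℂ) * (z : ℂ) + n) ≠ 0 := sub_ne_zero.mpr (by rwa [lat_mk] at h2)
  have h4 : u - (m : ℂ) * (z : ℂ) - n ≠ 0 := by rwa [sub_sub]
  field_simp
  ring

theorem zrow_of_ne_zero {u : ℂ} {z : ℍ} (hu : ∀ v, u ≠ lat z v) {m : ℤ} (hm : m ≠ 0) :
    zrow u z m = π * cot (π * (u - (m : ℂ) * (z : ℂ))) + π * cot (π * ((m : ℂ) * (z : ℂ))) +
      u * e2Summand m z := by
  have ha := sub_mem_integerComplement hu m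
  have hb := int_mul_mem_integerComplement z hm
  rw [zrow, tsum_congr (zetaTerm_row_eq hu hm), (summable_cot_pair' ha hb).tsum_add
    ((e2Summand_summable m z).mul_left u), tsum_cot_pair ha hb, tsum_mul_left, e2Summand]

theorem summable_succ_add_neg {f : ℤ → ℂ} (hf : Summable f) :
    Summable fun n : ℕ => (f ((n : ℤ) + 1) + f (-((n : ℤ) + 1))) := by
  have h3 : Summable (fun n : ℕ => f n + f (-(n : ℤ))) := hf.hasSum.nat_add_neg.summable
  have := (summable_nat_add_iff 1).mpr h3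
  simpa using this

theorem e2Summand_zero_eq (z : ℍ) : e2Summand 0 z = ∑' n : ℕ, 2 / ((n : ℂ) + 1) ^ 2 := by
  rw [e2Summand, tsum_int_eq_zero_add_tsum_succ (e2Summand_summable 0 z)]
  simp only [eisSummand]
  simp
  refine tsum_congr fun n => ?_
  have h : (-1 + -(n : ℂ)) ^ 2 = ((n : ℂ) + 1) ^ 2 := by ring
  rw [h]
  ring


theorem summable_two_div_sq : Summable fun n : ℕ => 2 / ((n : ℂ) + 1) ^ 2 := by
  have h := summable_succ_add_neg (e2Summand_summable 0 UpperHalfPlane.I)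
  refine h.congr fun n => ?_
  simp only [eisSummand]
  simp
  have h : (-1 + -(n : ℂ)) ^ 2 = ((n : ℂ) + 1) ^ 2 := by ring
  rw [h]
  ring

theorem zrow_zero {u : ℂ} {z : ℍ} (hu : ∀ v, u ≠ lat z v) :
    zrow u z 0 = π * cot (π * u) - 1 / u + u * e2Summand 0 z := by
  have hu' : u ∈ ℂ_ℤ := by
    have := sub_mem_integerComplement hu 0
    simpa using this
  rw [zrow, tsum_int_eq_zero_add_tsum_succ (summable_zetaTerm_row u z 0)]
  have h0 : zetaTerm u z ![0, 0] = 0 := by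
    have : (![0, 0] : Fin 2 → ℤ) = 0 := by simp
    rw [this, zetaTerm_zero]
  have h1 : ∀ n : ℕ, zetaTerm u z ![0, (n : ℤ) + 1] + zetaTerm u z ![0, -((n : ℤ) + 1)] =
      cotTerm u n + u * (2 / ((n : ℂ) + 1) ^ 2) := by
    intro n
    have hn : ((n : ℂ) + 1) ≠ 0 := by exact_mod_cast Nat.succ_ne_zero n
    have hv1 : (![0, (n : ℤ) + 1] : Fin 2 → ℤ) ≠ 0 := by
      intro h
      have := congrFun h 1
      simp at this
      omega
    have hv2 : (![0, -((n : ℤ) + 1)] : Fin 2 → ℤ) ≠ 0 := by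
      intro h
      have := congrFun h 1
      simp at this
      omega
    rw [zetaTerm_eq u z _ (lat_ne_zero z hv1) (hu _), zetaTerm_eq u z _ (lat_ne_zero z hv2) (hu _),
      lat_mk, lat_mk, cotTerm]
    push_cast
    have h3 : u - ((n : ℂ) + 1) ≠ 0 := by
      have := hu ![0, (n : ℤ) + 1]
      rw [lat_mk] at this
      push_cast at this
      intro h
      apply this
      linear_combination h
    have h4 : u + ((n : ℂ) + 1) ≠ 0 := by
      have := hu ![0, -((n : ℤ) + 1)]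
      rw [lat_mk] at this
      push_cast at this
      intro h
      apply this
      linear_combination h
    simp only [zero_mul, zero_add]
    have h5 : u - (-((n : ℂ) + 1)) = u + ((n : ℂ) + 1) := by ring
    rw [h5]
    field_simp
    ring
  rw [h0, zero_add, tsum_congr h1, (summable_cotTerm hu').tsum_add (summable_two_div_sq.mul_left u),
    tsum_mul_left, ← e2Summand_zero_eq z, ← cot_series_rep' hu']

theorem sum_Icc_eq_zero_add_sum_range (f : ℤ → ℂ) (N : ℕ) :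
    ∑ m ∈ Finset.Icc (-(N : ℤ)) N, f m =
      f 0 + ∑ m ∈ Finset.range N, (f ((m : ℤ) + 1) + f (-((m : ℤ) + 1))) := by
  induction N with
  | zero => simp
  | succ N ih =>
    rw [Finset.sum_range_succ, ← add_assoc, ← ih]
    have := Finset.sum_Icc_succ_eq_add_endpoints f (N := N)
    push_cast
    rw [this]
    ring

theorem tendsto_e2Summand_range (z : ℍ) :
    Tendsto (fun N : ℕ => ∑ m ∈ Finset.range N,
      (e2Summand ((m : ℤ) + 1) z + e2Summand (-((m : ℤ) + 1)) z)) atTop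
      (𝓝 (G2 z - e2Summand 0 z)) := by
  have h := hasSum_e2Summand_symmetricIcc z
  rw [← G2_eq_tsum_cexp, HasSum, symmetricIcc_eq_map_Icc_nat, tendsto_map'_iff] at h
  have h2 := h.sub_const (e2Summand 0 z)
  refine h2.congr fun N => ?_
  simp only [Function.comp_apply]
  rw [sum_Icc_eq_zero_add_sum_range]
  ring


/-- `cot(π(u - m z)) + cot(π(u + m z))` -/
def cotPair (u : ℂ) (z : ℍ) (m : ℕ) : ℂ :=
  cot (π * (u - (m : ℂ) * (z : ℂ))) + cot (π * (u + (m : ℂ) * (z : ℂ)))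

theorem cot_neg' (w : ℂ) : cot (-w) = -cot w := by
  rw [Complex.cot_eq_cos_div_sin, Complex.cot_eq_cos_div_sin, Complex.cos_neg, Complex.sin_neg, div_neg]

theorem zrow_add_neg {u : ℂ} {z : ℍ} (hu : ∀ v, u ≠ lat z v) (m : ℕ) :
    zrow u z ((m : ℤ) + 1) + zrow u z (-((m : ℤ) + 1)) =
      π * cotPair u z (m + 1) +
        u * (e2Summand ((m : ℤ) + 1) z + e2Summand (-((m : ℤ) + 1)) z) := by
  have h1 : ((m : ℤ) + 1) ≠ 0 := by omega
  have h2 : (-((m : ℤ) + 1)) ≠ 0 := by omega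
  rw [zrow_of_ne_zero hu h1, zrow_of_ne_zero hu h2, cotPair]
  push_cast
  have h3 : (π : ℂ) * (-((m : ℂ) + 1) * (z : ℂ)) = -(π * (((m : ℂ) + 1) * (z : ℂ))) := by ring
  have h4 : u - -((m : ℂ) + 1) * (z : ℂ) = u + ((m : ℂ) + 1) * (z : ℂ) := by ring
  rw [h3, cot_neg', h4]
  ring

/-- **the ROW identity** (limit form) -/
theorem tendsto_cotPair_sum {u : ℂ} {z : ℍ} (hu : ∀ v, u ≠ lat z v) :
    Tendsto (fun N : ℕ => ∑ m ∈ Finset.range N, π * cotPair u z (m + 1)) atTop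
      (𝓝 (wzeta u z - π * cot (π * u) - u * G2 z)) := by
  have hs := summable_zrow u z
  have h1 := (summable_succ_add_neg hs).hasSum.tendsto_sum_nat
  have h2 := (tendsto_e2Summand_range z).const_mul u
  have h3 := h1.sub h2
  have h4 : wzeta u z = 1 / u + (zrow u z 0 + ∑' n : ℕ, (zrow u z ((n : ℤ) + 1) + zrow u z (-((n : ℤ) + 1)))) := by
    rw [wzeta, tsum_zetaTerm_eq_tsum_zrow, tsum_int_eq_zero_add_tsum_succ hs]
  have h5 : wzeta u z - π * cot (π * u) - u * G2 z =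
      (∑' n : ℕ, (zrow u z ((n : ℤ) + 1) + zrow u z (-((n : ℤ) + 1)))) -
        u * (G2 z - e2Summand 0 z) := by
    rw [h4, zrow_zero hu]
    ring
  rw [h5]
  refine h3.congr fun N => ?_
  rw [Finset.mul_sum, ← Finset.sum_sub_distrib]
  refine Finset.sum_congr rfl fun m _ => ?_
  rw [zrow_add_neg hu m]
  ring

theorem cot_add_pi' (w : ℂ) : cot (w + π) = cot w := by
  rw [Complex.cot_eq_cos_div_sin, Complex.cot_eq_cos_div_sin, Complex.cos_add_pi, Complex.sin_add_pi,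
    neg_div_neg_eq]

theorem cot_pi_mul_add_one (w : ℂ) : cot (π * (w + 1)) = cot (π * w) := by
  rw [mul_add, mul_one, cot_add_pi']

theorem cotPair_add_one (u : ℂ) (z : ℍ) (m : ℕ) : cotPair (u + 1) z m = cotPair u z m := by
  rw [cotPair, cotPair]
  have h1 : u + 1 - (m : ℂ) * (z : ℂ) = (u - (m : ℂ) * (z : ℂ)) + 1 := by ring
  have h2 : u + 1 + (m : ℂ) * (z : ℂ) = (u + (m : ℂ) * (z : ℂ)) + 1 := by ring
  rw [h1, h2, cot_pi_mul_add_one, cot_pi_mul_add_one]

theorem ne_lat_add_one {u : ℂ} {z : ℍ} (hu : ∀ v, u ≠ lat z v) : ∀ v, u + 1 ≠ lat z v := by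
  intro v h
  apply hu ![v 0, v 1 - 1]
  rw [lat_mk]
  rw [lat] at h
  push_cast
  linear_combination h

/-- the quasi-period `η₁ = G2`: `ζ(u + 1) = ζ(u) + G2` -/
theorem wzeta_add_one {u : ℂ} {z : ℍ} (hu : ∀ v, u ≠ lat z v) :
    wzeta (u + 1) z = wzeta u z + G2 z := by
  have h1 := tendsto_cotPair_sum hu
  have h2 := tendsto_cotPair_sum (ne_lat_add_one hu)
  simp only [cotPair_add_one] at h2
  have h3 := tendsto_nhds_unique h1 h2
  rw [cot_pi_mul_add_one] at h3
  linear_combination (-1 : ℂ) * h3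

theorem ne_lat_div {u : ℂ} {z : ℍ} (γ : SL(2, ℤ)) (hu : ∀ v, u ≠ lat z v) :
    ∀ v, u / denom γ z ≠ lat (γ • z) v := by
  intro v h
  rw [lat_smul] at h
  have hd : denom γ z ≠ 0 := denom_ne_zero γ z
  apply hu (vecMulEquiv γ v)
  field_simp at h
  exact h

/-- the quasi-period `η₂ = z G2 - 2πi` (Legendre's relation) -/
theorem wzeta_add_tau {u : ℂ} {z : ℍ} (hu : ∀ v, u ≠ lat z v) :
    wzeta (u + z) z = wzeta u z + (z * G2 z - 2 * π * I) := by
  have hz : (z : ℂ) ≠ 0 := ne_zero z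
  have h1 := wzeta_smul ModularGroup.S u z
  have h2 := wzeta_smul ModularGroup.S (u + z) z
  rw [ModularGroup.denom_S] at h1 h2
  have h3 : (u + (z : ℂ)) / (z : ℂ) = u / (z : ℂ) + 1 := by field_simp
  have h4 := ne_lat_div ModularGroup.S hu
  rw [ModularGroup.denom_S] at h4
  rw [h3, wzeta_add_one h4, h1] at h2
  have h5 := G2_S_transform z
  have h6 : G2 (ModularGroup.S • z) = (z : ℂ) ^ 2 * G2 z - 2 * π * I * z := by
    rw [h5]
    field_simp
    ring
  rw [h6] at h2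
  have h7 : (z : ℂ) * wzeta (u + z) z = z * (wzeta u z + (z * G2 z - 2 * π * I)) := by
    rw [← h2]; ring
  exact mul_left_cancel₀ hz h7

end Fermat.Agent.DS.Eis1
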