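/-
S48 prep / (N5) (helper86): the weight one Eisenstein series

  `E_x(z) = ζ(x₁ z + x₂, z) - G2(z) (x₁ z + x₂) + 2πi x₁`,   `x = (x₁, x₂) ∈ ℝ² ∖ ℤ²`

* `eisZ_add_int`: `E_x` only depends on `x` modulo `ℤ²` (quasi-periods of `ζ` + Legendre);
* `eisZ_smul`, `eisZ_slash`: `E_x ∣[1] γ = E_{x γ}` for `γ ∈ SL(2, ℤ)` (`x` a row vector).
-/
import Fermat.Agent.DS.Eis1.Row
set_option autoImplicit false
noncomputable section
namespace Fermat.Agent.DS.Eis1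
open UpperHalfPlane hiding I
open EisensteinSeries Complex Filter Topology Asymptotics SummationFilter ModularForm
open scoped MatrixGroups Real

/-- the point `x₁ z + x₂` of `ℂ` -/
def upt (x₁ x₂ : ℝ) (z : ℍ) : ℂ := (x₁ : ℂ) * (z : ℂ) + (x₂ : ℂ)

/-- `x = (x₁, x₂) ∉ ℤ²` -/
def NonInt (x₁ x₂ : ℝ) : Prop := ¬ ∃ m n : ℤ, x₁ = m ∧ x₂ = n

theorem upt_ne_lat {x₁ x₂ : ℝ} (hx : NonInt x₁ x₂) (z : ℍ) : ∀ v, upt x₁ x₂ z ≠ lat z v := by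
  intro v h
  apply hx
  rw [upt, lat] at h
  have him := congrArg Complex.im h
  have hre := congrArg Complex.re h
  simp only [add_im, mul_im, ofReal_re, ofReal_im, zero_mul, add_zero, intCast_re, intCast_im,
    add_re, mul_re, sub_zero, coe_im, coe_re] at him hre
  have h1 : x₁ = (v 0 : ℝ) := mul_right_cancel₀ z.im_pos.ne' him
  refine ⟨v 0, v 1, h1, ?_⟩
  rw [h1] at hre
  linarith

/-- **the weight one Eisenstein series `E_x`**, `x = (x₁, x₂) ∈ ℝ² ∖ ℤ²` -/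
def eisZ (x₁ x₂ : ℝ) (z : ℍ) : ℂ :=
  wzeta (upt x₁ x₂ z) z - G2 z * upt x₁ x₂ z + 2 * π * I * x₁

theorem NonInt.add_one_left {x₁ x₂ : ℝ} (hx : NonInt x₁ x₂) : NonInt (x₁ + 1) x₂ := by
  rintro ⟨m, n, h1, h2⟩
  exact hx ⟨m - 1, n, by push_cast; linarith, h2⟩

theorem NonInt.add_one_right {x₁ x₂ : ℝ} (hx : NonInt x₁ x₂) : NonInt x₁ (x₂ + 1) := by
  rintro ⟨m, n, h1, h2⟩
  exact hx ⟨m, n - 1, h1, by push_cast; linarith⟩

theorem NonInt.add_int {x₁ x₂ : ℝ} (hx : NonInt x₁ x₂) (m n : ℤ) : NonInt (x₁ + m) (x₂ + n) := by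
  rintro ⟨m', n', h1, h2⟩
  exact hx ⟨m' - m, n' - n, by push_cast; linarith, by push_cast; linarith⟩

theorem eisZ_add_one_right {x₁ x₂ : ℝ} (hx : NonInt x₁ x₂) (z : ℍ) :
    eisZ x₁ (x₂ + 1) z = eisZ x₁ x₂ z := by
  have h1 : upt x₁ (x₂ + 1) z = upt x₁ x₂ z + 1 := by simp [upt]; ring
  rw [eisZ, eisZ, h1, wzeta_add_one (upt_ne_lat hx z)]
  ring

theorem eisZ_add_one_left {x₁ x₂ : ℝ} (hx : NonInt x₁ x₂) (z : ℍ) :
    eisZ (x₁ + 1) x₂ z = eisZ x₁ x₂ z := by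
  have h1 : upt (x₁ + 1) x₂ z = upt x₁ x₂ z + z := by simp [upt]; ring
  rw [eisZ, eisZ, h1, wzeta_add_tau (upt_ne_lat hx z)]
  push_cast
  ring

theorem eisZ_add_nat_right {x₁ x₂ : ℝ} (hx : NonInt x₁ x₂) (z : ℍ) (n : ℕ) :
    eisZ x₁ (x₂ + n) z = eisZ x₁ x₂ z := by
  induction n with
  | zero => simp
  | succ n ih =>
    have := eisZ_add_one_right (hx.add_int 0 n) z
    simp only [Int.cast_zero, add_zero, Int.cast_natCast] at this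
    rw [← ih, ← this]
    push_cast
    ring_nf

theorem eisZ_add_nat_left {x₁ x₂ : ℝ} (hx : NonInt x₁ x₂) (z : ℍ) (n : ℕ) :
    eisZ (x₁ + n) x₂ z = eisZ x₁ x₂ z := by
  induction n with
  | zero => simp
  | succ n ih =>
    have := eisZ_add_one_left (hx.add_int n 0) z
    simp only [Int.cast_zero, add_zero, Int.cast_natCast] at this
    rw [← ih, ← this]
    push_cast
    ring_nf

theorem eisZ_add_int_right {x₁ x₂ : ℝ} (hx : NonInt x₁ x₂) (z : ℍ) (n : ℤ) :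
    eisZ x₁ (x₂ + n) z = eisZ x₁ x₂ z := by
  obtain ⟨k, rfl | rfl⟩ := n.eq_nat_or_neg
  · exact_mod_cast eisZ_add_nat_right hx z k
  · have h := eisZ_add_nat_right (hx.add_int 0 (-(k : ℤ))) z k
    simp only [Int.cast_zero, add_zero, Int.cast_neg, Int.cast_natCast, neg_add_cancel_right] at h
    push_cast
    exact h.symm

theorem eisZ_add_int_left {x₁ x₂ : ℝ} (hx : NonInt x₁ x₂) (z : ℍ) (n : ℤ) :
    eisZ (x₁ + n) x₂ z = eisZ x₁ x₂ z := by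
  obtain ⟨k, rfl | rfl⟩ := n.eq_nat_or_neg
  · exact_mod_cast eisZ_add_nat_left hx z k
  · have h := eisZ_add_nat_left (hx.add_int (-(k : ℤ)) 0) z k
    simp only [Int.cast_zero, add_zero, Int.cast_neg, Int.cast_natCast, neg_add_cancel_right] at h
    push_cast
    exact h.symm

/-- `E_x` only depends on `x` modulo `ℤ²` -/
theorem eisZ_add_int {x₁ x₂ : ℝ} (hx : NonInt x₁ x₂) (z : ℍ) (m n : ℤ) :
    eisZ (x₁ + m) (x₂ + n) z = eisZ x₁ x₂ z := by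
  have h1 := eisZ_add_int_left (hx.add_int 0 n) z m
  simp only [Int.cast_zero, add_zero] at h1
  rw [h1, eisZ_add_int_right hx]

theorem G2_smul (γ : SL(2, ℤ)) (z : ℍ) :
    G2 (γ • z) = denom γ z ^ 2 * G2 z - 2 * π * I * (γ 1 0 : ℂ) * denom γ z := by
  have h := congrFun (G2_slash_action γ) z
  have hd : denom γ z ≠ 0 := denom_ne_zero γ z
  rw [SL_slash_apply] at h
  simp only [Pi.sub_apply, D2] at h
  rw [zpow_neg, mul_inv_eq_iff_eq_mul₀ (zpow_ne_zero _ hd)] at h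
  rw [h]
  have : denom γ z ^ (2 : ℤ) = denom γ z ^ 2 := by norm_cast
  rw [this]
  field_simp

theorem coe_smul_eq (γ : SL(2, ℤ)) (z : ℍ) :
    ((γ • z : ℍ) : ℂ) = ((γ 0 0 : ℂ) * z + (γ 0 1 : ℂ)) / denom γ z := by
  rw [coe_specialLinearGroup_apply, ModularGroup.denom_apply]
  simp

theorem det_eq_one' (γ : SL(2, ℤ)) : (γ 0 0 : ℂ) * (γ 1 1 : ℂ) - (γ 0 1 : ℂ) * (γ 1 0 : ℂ) = 1 := by
  have h := γ.det_coe
  rw [Matrix.det_fin_two] at h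
  exact_mod_cast h

theorem upt_smul (γ : SL(2, ℤ)) (x₁ x₂ : ℝ) (z : ℍ) :
    upt x₁ x₂ (γ • z) =
      upt (x₁ * (γ 0 0 : ℝ) + x₂ * (γ 1 0 : ℝ)) (x₁ * (γ 0 1 : ℝ) + x₂ * (γ 1 1 : ℝ)) z / denom γ z := by
  have hd : denom γ z ≠ 0 := denom_ne_zero γ z
  rw [upt, upt, coe_smul_eq]
  field_simp
  rw [ModularGroup.denom_apply]
  push_cast
  ring

/-- **the weight one transformation law**: `E_x(γ z) = (c z + d) E_{x γ}(z)` -/
theorem eisZ_smul (γ : SL(2, ℤ)) (x₁ x₂ : ℝ) (z : ℍ) :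
    eisZ x₁ x₂ (γ • z) = denom γ z *
      eisZ (x₁ * (γ 0 0 : ℝ) + x₂ * (γ 1 0 : ℝ)) (x₁ * (γ 0 1 : ℝ) + x₂ * (γ 1 1 : ℝ)) z := by
  have hd : denom γ z ≠ 0 := denom_ne_zero γ z
  rw [eisZ, eisZ, upt_smul, wzeta_smul, G2_smul]
  have hdet := det_eq_one' γ
  set u' := upt (x₁ * (γ 0 0 : ℝ) + x₂ * (γ 1 0 : ℝ)) (x₁ * (γ 0 1 : ℝ) + x₂ * (γ 1 1 : ℝ)) z with hu'
  have key : (γ 1 0 : ℂ) * u' + x₁ = denom γ z * ((x₁ * (γ 0 0 : ℝ) + x₂ * (γ 1 0 : ℝ) : ℝ) : ℂ) := by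
    rw [hu', upt, ModularGroup.denom_apply]
    push_cast
    linear_combination (-(x₁ : ℂ)) * hdet
  have h2 : (denom γ z ^ 2 * G2 z - 2 * π * I * (γ 1 0 : ℂ) * denom γ z) * (u' / denom γ z) =
      denom γ z * G2 z * u' - 2 * π * I * (γ 1 0 : ℂ) * u' := by
    field_simp
  rw [h2]
  linear_combination (2 * π * I) * key

theorem eisZ_slash (γ : SL(2, ℤ)) (x₁ x₂ : ℝ) :
    (eisZ x₁ x₂) ∣[(1 : ℤ)] γ =
      eisZ (x₁ * (γ 0 0 : ℝ) + x₂ * (γ 1 0 : ℝ)) (x₁ * (γ 0 1 : ℝ) + x₂ * (γ 1 1 : ℝ)) := by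
  ext z
  have hd : denom γ z ≠ 0 := denom_ne_zero γ z
  rw [SL_slash_apply, eisZ_smul, zpow_neg, zpow_one]
  field_simp

end Fermat.Agent.DS.Eis1
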