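/-
S48 prep / (N5) (helper86): analytic properties of the weight one Eisenstein series `E_x`.

For `0 ≤ x₁ < 1` the ROW identity becomes an absolutely convergent sum of exponential terms
(`eisZ_eq_tsum`); from it: `E_x` is holomorphic on `ℍ` (`mdifferentiable_eisZ`) and bounded at `i∞`
(`isBoundedAtImInfty_eisZ`), for every `x ∈ ℝ² ∖ ℤ²` (reduction modulo `ℤ²`).
-/
import Fermat.Agent.DS.Eis1.EisZ
set_option autoImplicit false
noncomputable section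
namespace Fermat.Agent.DS.Eis1
open UpperHalfPlane hiding I
open EisensteinSeries Complex Filter Topology Asymptotics SummationFilter ModularForm
open scoped MatrixGroups Real Manifold

/-- `e(w) = exp(2πi w)` -/
def ee (w : ℂ) : ℂ := cexp (2 * π * I * w)

/-- `e(w) / (1 - e(w)) = ∑_{k ≥ 1} e(k w)` -/
def gq (w : ℂ) : ℂ := ee w / (1 - ee w)

theorem norm_ee (w : ℂ) : ‖ee w‖ = Real.exp (-2 * π * w.im) := by
  rw [ee, Complex.norm_exp]
  congr 1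
  simp only [mul_re, re_ofNat, ofReal_re, im_ofNat, ofReal_im, mul_zero, sub_zero, Complex.I_re,
    mul_im, zero_mul, add_zero, Complex.I_im]
  ring

theorem ee_ne_one_of_im_pos {w : ℂ} (hw : 0 < w.im) : ee w ≠ 1 := by
  intro h
  have h1 := norm_ee w
  rw [h, norm_one] at h1
  have h2 : Real.exp (-2 * π * w.im) < 1 := by
    rw [Real.exp_lt_one_iff]
    have := Real.pi_pos
    nlinarith
  linarith

theorem ee_add (w w' : ℂ) : ee (w + w') = ee w * ee w' := by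
  rw [ee, ee, ee, ← Complex.exp_add]
  congr 1
  ring

theorem pi_cot_eq {w : ℂ} (h : ee w ≠ 1) :
    π * cot (π * w) = -(π * I) - 2 * π * I * gq w := by
  have h1 : 1 - ee w ≠ 0 := sub_ne_zero.mpr (Ne.symm h)
  rw [cot_pi_eq_exp_ratio, gq, ← ee]
  have hI : I ≠ 0 := I_ne_zero
  field_simp
  ring_nf
  rw [I_sq]
  ring

theorem norm_gq_le {w : ℂ} {t : ℝ} (ht : 0 < t) (hw : t ≤ w.im) :
    ‖gq w‖ ≤ Real.exp (-2 * π * t) / (1 - Real.exp (-2 * π * t)) := by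
  have hpi := Real.pi_pos
  have h1 : ‖ee w‖ ≤ Real.exp (-2 * π * t) := by
    rw [norm_ee, Real.exp_le_exp]
    nlinarith
  have h2 : Real.exp (-2 * π * t) < 1 := by
    rw [Real.exp_lt_one_iff]
    nlinarith
  have h3 : 0 < 1 - Real.exp (-2 * π * t) := by linarith
  have h4 : 1 - Real.exp (-2 * π * t) ≤ ‖1 - ee w‖ := by
    have := norm_sub_norm_le (1 : ℂ) (ee w)
    rw [norm_one] at this
    linarith
  rw [gq, norm_div]
  exact div_le_div₀ (Real.exp_pos _).le h1 h3 h4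


/-- the `m`-th pair term `π (cot(π(u - (m+1) w)) + cot(π(u + (m+1) w)))`, `u = x₁ w + x₂`,
in exponential form -/
def pairFn (x₁ x₂ : ℝ) (m : ℕ) (w : ℂ) : ℂ :=
  2 * π * I * (gq (((m : ℂ) + 1) * w - ((x₁ : ℂ) * w + x₂)) -
    gq (((m : ℂ) + 1) * w + ((x₁ : ℂ) * w + x₂)))

theorem im_pair_sub (x₁ x₂ : ℝ) (m : ℕ) (w : ℂ) :
    (((m : ℂ) + 1) * w - ((x₁ : ℂ) * w + x₂)).im = ((m : ℝ) + 1 - x₁) * w.im := by
  simp only [sub_im, mul_im, add_re, natCast_re, one_re, add_im, natCast_im, one_im, add_zero,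
    zero_mul, ofReal_re, ofReal_im]
  ring

theorem im_pair_add (x₁ x₂ : ℝ) (m : ℕ) (w : ℂ) :
    (((m : ℂ) + 1) * w + ((x₁ : ℂ) * w + x₂)).im = ((m : ℝ) + 1 + x₁) * w.im := by
  simp only [mul_im, add_re, natCast_re, one_re, add_im, natCast_im, one_im, add_zero,
    zero_mul, ofReal_re, ofReal_im]
  ring

theorem pi_cotPair_eq {x₁ : ℝ} (x₂ : ℝ) (h0 : 0 ≤ x₁) (h1 : x₁ < 1) (z : ℍ) (m : ℕ) :
    π * cotPair (upt x₁ x₂ z) z (m + 1) = pairFn x₁ x₂ m z := by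
  have hy := z.im_pos
  have hm : (0 : ℝ) ≤ m := Nat.cast_nonneg m
  have hw1 : 0 < (((m : ℂ) + 1) * (z : ℂ) - ((x₁ : ℂ) * z + x₂)).im := by
    rw [im_pair_sub]
    exact mul_pos (by linarith) hy
  have hw2 : 0 < (((m : ℂ) + 1) * (z : ℂ) + ((x₁ : ℂ) * z + x₂)).im := by
    rw [im_pair_add]
    exact mul_pos (by linarith) hy
  rw [cotPair, pairFn, upt, mul_add]
  push_cast
  have e1 : (π : ℂ) * ((x₁ : ℂ) * z + x₂ - ((m : ℂ) + 1) * z) =
      -(π * (((m : ℂ) + 1) * (z : ℂ) - ((x₁ : ℂ) * z + x₂))) := by ring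
  have e2 : (x₁ : ℂ) * z + x₂ + ((m : ℂ) + 1) * z = ((m : ℂ) + 1) * (z : ℂ) + ((x₁ : ℂ) * z + x₂) := by
    ring
  rw [e1, cot_neg', e2, mul_neg, pi_cot_eq (ee_ne_one_of_im_pos hw1),
    pi_cot_eq (ee_ne_one_of_im_pos hw2)]
  ring

theorem norm_pairFn_le {x₁ : ℝ} (x₂ : ℝ) (h0 : 0 ≤ x₁) (h1 : x₁ < 1) {ε : ℝ} (hε : 0 < ε) {w : ℂ}
    (hw : ε ≤ w.im) (m : ℕ) :
    ‖pairFn x₁ x₂ m w‖ ≤ 4 * π * (Real.exp (-2 * π * ((1 - x₁) * ε)) /
      (1 - Real.exp (-2 * π * ((1 - x₁) * ε)))) * Real.exp (-2 * π * ε) ^ m := by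
  have hpi := Real.pi_pos
  have hm : (0 : ℝ) ≤ m := Nat.cast_nonneg m
  set A := Real.exp (-2 * π * ((1 - x₁) * ε)) with hA
  set ρ := Real.exp (-2 * π * ε) with hρ
  set t := ((m : ℝ) + 1 - x₁) * ε with ht
  have htpos : 0 < t := mul_pos (by linarith) hε
  have hA1 : A < 1 := by
    rw [hA, Real.exp_lt_one_iff]
    have : 0 < (1 - x₁) * ε := mul_pos (by linarith) hε
    nlinarith
  have hA0 : 0 < A := Real.exp_pos _
  have hρ0 : 0 < ρ := Real.exp_pos _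
  have hρ1 : ρ ≤ 1 := by
    rw [hρ, Real.exp_le_one_iff]
    nlinarith
  have hE : Real.exp (-2 * π * t) = A * ρ ^ m := by
    rw [hA, hρ, ← Real.exp_nat_mul, ← Real.exp_add]
    congr 1
    rw [ht]
    ring
  have hρm : ρ ^ m ≤ 1 := pow_le_one₀ hρ0.le hρ1
  have hρm0 : 0 < ρ ^ m := pow_pos hρ0 m
  have hE1 : A * ρ ^ m ≤ A := by nlinarith
  have hb : Real.exp (-2 * π * t) / (1 - Real.exp (-2 * π * t)) ≤ A / (1 - A) * ρ ^ m := by
    rw [hE, div_mul_eq_mul_div]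
    apply div_le_div_of_nonneg_left (by positivity) (by linarith) (by linarith)
  have hw1 : t ≤ (((m : ℂ) + 1) * w - ((x₁ : ℂ) * w + x₂)).im := by
    rw [im_pair_sub, ht]
    exact mul_le_mul_of_nonneg_left hw (by linarith)
  have hw2 : t ≤ (((m : ℂ) + 1) * w + ((x₁ : ℂ) * w + x₂)).im := by
    rw [im_pair_add, ht]
    have hwpos : 0 ≤ w.im := by linarith
    calc ((m : ℝ) + 1 - x₁) * ε ≤ ((m : ℝ) + 1 + x₁) * ε := by nlinarith
      _ ≤ ((m : ℝ) + 1 + x₁) * w.im := mul_le_mul_of_nonneg_left hw (by linarith)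
  have g1 := (norm_gq_le htpos hw1).trans hb
  have g2 := (norm_gq_le htpos hw2).trans hb
  rw [pairFn, norm_mul]
  have hn : ‖(2 : ℂ) * π * I‖ = 2 * π := by
    simp [abs_of_pos hpi]
  rw [hn]
  have := norm_sub_le (gq (((m : ℂ) + 1) * w - ((x₁ : ℂ) * w + x₂)))
    (gq (((m : ℂ) + 1) * w + ((x₁ : ℂ) * w + x₂)))
  have h3 : ‖gq (((m : ℂ) + 1) * w - ((x₁ : ℂ) * w + x₂)) -
      gq (((m : ℂ) + 1) * w + ((x₁ : ℂ) * w + x₂))‖ ≤ 2 * (A / (1 - A) * ρ ^ m) := by linarith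
  calc 2 * π * ‖gq (((m : ℂ) + 1) * w - ((x₁ : ℂ) * w + x₂)) -
      gq (((m : ℂ) + 1) * w + ((x₁ : ℂ) * w + x₂))‖ ≤ 2 * π * (2 * (A / (1 - A) * ρ ^ m)) :=
        mul_le_mul_of_nonneg_left h3 (by positivity)
    _ = 4 * π * (A / (1 - A)) * ρ ^ m := by ring


theorem summable_geom_bound (C : ℝ) {ε : ℝ} (hε : 0 < ε) :
    Summable fun m : ℕ => C * Real.exp (-2 * π * ε) ^ m := by
  apply Summable.mul_left
  apply summable_geometric_of_lt_one (Real.exp_pos _).le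
  rw [Real.exp_lt_one_iff]
  have := Real.pi_pos
  nlinarith

theorem summable_pairFn {x₁ : ℝ} (x₂ : ℝ) (h0 : 0 ≤ x₁) (h1 : x₁ < 1) {w : ℂ} (hw : 0 < w.im) :
    Summable fun m : ℕ => pairFn x₁ x₂ m w :=
  Summable.of_norm_bounded (summable_geom_bound _ hw) (fun m => norm_pairFn_le x₂ h0 h1 hw le_rfl m)

/-- **the ROW identity for `E_x`**, `0 ≤ x₁ < 1` -/
theorem eisZ_eq_tsum {x₁ x₂ : ℝ} (hx : NonInt x₁ x₂) (h0 : 0 ≤ x₁) (h1 : x₁ < 1) (z : ℍ) :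
    eisZ x₁ x₂ z = π * cot (π * upt x₁ x₂ z) + 2 * π * I * x₁ + ∑' m : ℕ, pairFn x₁ x₂ m z := by
  have ht := tendsto_cotPair_sum (upt_ne_lat hx z)
  simp only [pi_cotPair_eq x₂ h0 h1 z] at ht
  have hs := (summable_pairFn x₂ h0 h1 z.im_pos).hasSum.tendsto_sum_nat
  have := tendsto_nhds_unique ht hs
  rw [eisZ, ← this]
  ring


local notation "ℂ_ℤ" => Complex.integerComplement

theorem upt_mem_integerComplement {x₁ x₂ : ℝ} (hx : NonInt x₁ x₂) {w : ℂ} (hw : 0 < w.im) :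
    (x₁ : ℂ) * w + x₂ ∈ ℂ_ℤ := by
  have := sub_mem_integerComplement (upt_ne_lat hx ⟨w, hw⟩) 0
  simpa [upt] using this

theorem differentiableAt_pi_cot {x₁ x₂ : ℝ} (hx : NonInt x₁ x₂) {w : ℂ} (hw : 0 < w.im) :
    DifferentiableAt ℂ (fun w : ℂ => (π : ℂ) * cot (π * ((x₁ : ℂ) * w + x₂))) w := by
  have hsin : Complex.sin (π * ((x₁ : ℂ) * w + x₂)) ≠ 0 :=
    sin_pi_mul_ne_zero (upt_mem_integerComplement hx hw)
  have h : DifferentiableAt ℂ (fun w : ℂ => Complex.cos (π * ((x₁ : ℂ) * w + x₂)) /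
      Complex.sin (π * ((x₁ : ℂ) * w + x₂))) w :=
    DifferentiableAt.div (by fun_prop) (by fun_prop) hsin
  simp_rw [Complex.cot_eq_cos_div_sin]
  exact (differentiableAt_const _).mul h

theorem differentiableAt_gq {v : ℂ} (hv : ee v ≠ 1) : DifferentiableAt ℂ gq v := by
  have h1 : 1 - ee v ≠ 0 := sub_ne_zero.mpr (Ne.symm hv)
  have h2 : DifferentiableAt ℂ (fun w : ℂ => cexp (2 * π * I * w) / (1 - cexp (2 * π * I * w))) v := by
    apply DifferentiableAt.div (by fun_prop) (by fun_prop)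
    exact h1
  exact h2

theorem differentiableAt_pairFn {x₁ : ℝ} (x₂ : ℝ) (h0 : 0 ≤ x₁) (h1 : x₁ < 1) (m : ℕ) {w : ℂ}
    (hw : 0 < w.im) : DifferentiableAt ℂ (pairFn x₁ x₂ m) w := by
  have hm : (0 : ℝ) ≤ m := Nat.cast_nonneg m
  have hw1 : 0 < (((m : ℂ) + 1) * w - ((x₁ : ℂ) * w + x₂)).im := by
    rw [im_pair_sub]
    exact mul_pos (by linarith) hw
  have hw2 : 0 < (((m : ℂ) + 1) * w + ((x₁ : ℂ) * w + x₂)).im := by
    rw [im_pair_add]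
    exact mul_pos (by linarith) hw
  have l1 : DifferentiableAt ℂ (fun w : ℂ => ((m : ℂ) + 1) * w - ((x₁ : ℂ) * w + x₂)) w := by fun_prop
  have l2 : DifferentiableAt ℂ (fun w : ℂ => ((m : ℂ) + 1) * w + ((x₁ : ℂ) * w + x₂)) w := by fun_prop
  have d1 : DifferentiableAt ℂ (fun w : ℂ => gq (((m : ℂ) + 1) * w - ((x₁ : ℂ) * w + x₂))) w :=
    DifferentiableAt.comp w (differentiableAt_gq (ee_ne_one_of_im_pos hw1)) l1
  have d2 : DifferentiableAt ℂ (fun w : ℂ => gq (((m : ℂ) + 1) * w + ((x₁ : ℂ) * w + x₂))) w :=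
    DifferentiableAt.comp w (differentiableAt_gq (ee_ne_one_of_im_pos hw2)) l2
  unfold pairFn
  exact (differentiableAt_const _).mul (d1.sub d2)

theorem differentiableOn_tsum_pairFn {x₁ : ℝ} (x₂ : ℝ) (h0 : 0 ≤ x₁) (h1 : x₁ < 1) {ε : ℝ}
    (hε : 0 < ε) :
    DifferentiableOn ℂ (fun w : ℂ => ∑' m : ℕ, pairFn x₁ x₂ m w) {w : ℂ | ε < w.im} :=
  differentiableOn_tsum_of_summable_norm (summable_geom_bound _ hε)
    (fun m _ hw => (differentiableAt_pairFn x₂ h0 h1 m (lt_trans hε hw)).differentiableWithinAt)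
    (isOpen_lt continuous_const Complex.continuous_im)
    (fun m _ hw => norm_pairFn_le x₂ h0 h1 hε (le_of_lt hw) m)

theorem mdifferentiable_eisZ_of_lt_one {x₁ x₂ : ℝ} (hx : NonInt x₁ x₂) (h0 : 0 ≤ x₁) (h1 : x₁ < 1) :
    MDiff (eisZ x₁ x₂) := by
  rw [UpperHalfPlane.mdifferentiable_iff]
  intro w hw
  have hw' : 0 < w.im := hw
  have hε : 0 < w.im / 2 := by linarith
  have hopen : IsOpen {v : ℂ | w.im / 2 < v.im} := isOpen_lt continuous_const Complex.continuous_im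
  have hmem : w ∈ {v : ℂ | w.im / 2 < v.im} := by
    show w.im / 2 < w.im
    linarith
  have hF : DifferentiableAt ℂ (fun v : ℂ => (π : ℂ) * cot (π * ((x₁ : ℂ) * v + x₂)) +
      2 * π * I * x₁ + ∑' m : ℕ, pairFn x₁ x₂ m v) w :=
    ((differentiableAt_pi_cot hx hw').add (differentiableAt_const _)).add
      ((differentiableOn_tsum_pairFn x₂ h0 h1 hε).differentiableAt (hopen.mem_nhds hmem))
  refine (hF.congr_of_eventuallyEq ?_).differentiableWithinAt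
  filter_upwards [hopen.mem_nhds hmem] with v hv
  have hv' : 0 < v.im := lt_trans hε hv
  rw [Function.comp_apply, ofComplex_apply_of_im_pos hv', eisZ_eq_tsum hx h0 h1, upt]

theorem NonInt.fract {x₁ x₂ : ℝ} (hx : NonInt x₁ x₂) : NonInt (Int.fract x₁) x₂ := by
  have := hx.add_int (-⌊x₁⌋) 0
  simpa [Int.fract, sub_eq_add_neg] using this

theorem eisZ_fract {x₁ x₂ : ℝ} (hx : NonInt x₁ x₂) : eisZ (Int.fract x₁) x₂ = eisZ x₁ x₂ := by
  ext z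
  have := eisZ_add_int_left hx.fract z ⌊x₁⌋
  rw [Int.fract_add_floor] at this
  exact this.symm

/-- `E_x` is holomorphic on `ℍ` -/
theorem mdifferentiable_eisZ {x₁ x₂ : ℝ} (hx : NonInt x₁ x₂) : MDiff (eisZ x₁ x₂) := by
  rw [← eisZ_fract hx]
  exact mdifferentiable_eisZ_of_lt_one hx.fract (Int.fract_nonneg _) (Int.fract_lt_one _)


theorem norm_tsum_pairFn_le {x₁ : ℝ} (x₂ : ℝ) (h0 : 0 ≤ x₁) (h1 : x₁ < 1) {ε : ℝ} (hε : 0 < ε)
    {w : ℂ} (hw : ε ≤ w.im) :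
    ‖∑' m : ℕ, pairFn x₁ x₂ m w‖ ≤ ∑' m : ℕ, 4 * π * (Real.exp (-2 * π * ((1 - x₁) * ε)) /
      (1 - Real.exp (-2 * π * ((1 - x₁) * ε)))) * Real.exp (-2 * π * ε) ^ m :=
  tsum_of_norm_bounded (summable_geom_bound _ hε).hasSum (fun m => norm_pairFn_le x₂ h0 h1 hε hw m)

theorem norm_pi_cot_le {x₁ : ℝ} (x₂ : ℝ) (h0 : 0 < x₁) (z : ℍ) (hz : 1 ≤ z.im) :
    ‖(π : ℂ) * cot (π * upt x₁ x₂ z)‖ ≤
      π + 2 * π * (Real.exp (-2 * π * x₁) / (1 - Real.exp (-2 * π * x₁))) := by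
  have hpi := Real.pi_pos
  have him : x₁ ≤ (upt x₁ x₂ z).im := by
    simp only [upt, add_im, mul_im, ofReal_re, coe_im, ofReal_im, coe_re, zero_mul, add_zero]
    nlinarith
  have hpos : 0 < (upt x₁ x₂ z).im := lt_of_lt_of_le h0 him
  rw [pi_cot_eq (ee_ne_one_of_im_pos hpos)]
  have h1 := norm_gq_le h0 him
  have h2 : ‖-((π : ℂ) * I)‖ = π := by simp [abs_of_pos hpi]
  have h3 : ‖(2 : ℂ) * π * I * gq (upt x₁ x₂ z)‖ = 2 * π * ‖gq (upt x₁ x₂ z)‖ := by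
    rw [norm_mul]
    simp [abs_of_pos hpi]
  calc ‖-((π : ℂ) * I) - 2 * π * I * gq (upt x₁ x₂ z)‖
      ≤ ‖-((π : ℂ) * I)‖ + ‖(2 : ℂ) * π * I * gq (upt x₁ x₂ z)‖ := norm_sub_le _ _
    _ = π + 2 * π * ‖gq (upt x₁ x₂ z)‖ := by rw [h2, h3]
    _ ≤ π + 2 * π * (Real.exp (-2 * π * x₁) / (1 - Real.exp (-2 * π * x₁))) := by
        have : 0 ≤ 2 * π := by positivity
        nlinarith [mul_le_mul_of_nonneg_left h1 this]

theorem isBoundedAtImInfty_eisZ_of_lt_one {x₁ x₂ : ℝ} (hx : NonInt x₁ x₂) (h0 : 0 ≤ x₁)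
    (h1 : x₁ < 1) : IsBoundedAtImInfty (eisZ x₁ x₂) := by
  rw [isBoundedAtImInfty_iff]
  rcases h0.eq_or_lt with h00 | h00
  · subst h00
    refine ⟨‖(π : ℂ) * cot (π * x₂)‖ + 0 + (∑' m : ℕ, 4 * π * (Real.exp (-2 * π * ((1 - 0) * 1)) /
      (1 - Real.exp (-2 * π * ((1 - 0) * 1)))) * Real.exp (-2 * π * 1) ^ m), 1, fun z hz => ?_⟩
    rw [eisZ_eq_tsum hx le_rfl h1]
    refine (norm_add_le _ _).trans (add_le_add ((norm_add_le _ _).trans (add_le_add ?_ ?_))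
      (norm_tsum_pairFn_le x₂ le_rfl h1 one_pos hz))
    · simp [upt]
    · simp
  · refine ⟨(π + 2 * π * (Real.exp (-2 * π * x₁) / (1 - Real.exp (-2 * π * x₁)))) + 2 * π * x₁ +
      (∑' m : ℕ, 4 * π * (Real.exp (-2 * π * ((1 - x₁) * 1)) /
      (1 - Real.exp (-2 * π * ((1 - x₁) * 1)))) * Real.exp (-2 * π * 1) ^ m), 1, fun z hz => ?_⟩
    rw [eisZ_eq_tsum hx h0 h1]
    refine (norm_add_le _ _).trans (add_le_add ((norm_add_le _ _).trans (add_le_add ?_ ?_))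
      (norm_tsum_pairFn_le x₂ h0 h1 one_pos hz))
    · exact norm_pi_cot_le x₂ h00 z hz
    · have hpi := Real.pi_pos
      simp [abs_of_pos hpi, abs_of_pos h00]

/-- `E_x` is bounded at `i∞` -/
theorem isBoundedAtImInfty_eisZ {x₁ x₂ : ℝ} (hx : NonInt x₁ x₂) :
    IsBoundedAtImInfty (eisZ x₁ x₂) := by
  rw [← eisZ_fract hx]
  exact isBoundedAtImInfty_eisZ_of_lt_one hx.fract (Int.fract_nonneg _) (Int.fract_lt_one _)

end Fermat.Agent.DS.Eis1
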