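/-
S48 prep / (N5) (helper86): weight one Eisenstein series as Mathlib modular forms.

`eisLin M c : ModularForm (Gamma1 M) 1` is `∑_{a ≠ 0} c(a) E_{(0, a/M)}` for `c : ZMod M → ℂ`;
`Γ0(M)` acts by `c ↦ c(· * a₀₀)` (`eisLin_slash_Gamma0`), which gives the nebentypus of the
character combinations.
-/
import Fermat.Agent.DS.Eis1.EisAn
set_option autoImplicit false
noncomputable section
namespace Fermat.Agent.DS.Eis1
open UpperHalfPlane hiding I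
open EisensteinSeries Complex Filter Topology Asymptotics ModularForm CongruenceSubgroup
open scoped MatrixGroups Real Manifold

theorem det_eq_one_real (γ : SL(2, ℤ)) :
    (γ 0 0 : ℝ) * (γ 1 1 : ℝ) - (γ 0 1 : ℝ) * (γ 1 0 : ℝ) = 1 := by
  have h := γ.det_coe
  rw [Matrix.det_fin_two] at h
  exact_mod_cast h

theorem NonInt.smul {x₁ x₂ : ℝ} (hx : NonInt x₁ x₂) (γ : SL(2, ℤ)) :
    NonInt (x₁ * (γ 0 0 : ℝ) + x₂ * (γ 1 0 : ℝ)) (x₁ * (γ 0 1 : ℝ) + x₂ * (γ 1 1 : ℝ)) := by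
  rintro ⟨m, n, h1, h2⟩
  have hdet := det_eq_one_real γ
  refine hx ⟨m * γ 1 1 - n * γ 1 0, n * γ 0 0 - m * γ 0 1, ?_, ?_⟩
  · push_cast
    rw [← h1, ← h2]
    linear_combination (-x₁) * hdet
  · push_cast
    rw [← h1, ← h2]
    linear_combination (-x₂) * hdet

/-- `E_x ∣[1] γ` is bounded at `i∞` for every `γ ∈ SL(2, ℤ)` -/
theorem isBoundedAtImInfty_eisZ_slash {x₁ x₂ : ℝ} (hx : NonInt x₁ x₂) (γ : SL(2, ℤ)) :
    IsBoundedAtImInfty ((eisZ x₁ x₂) ∣[(1 : ℤ)] γ) := by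
  rw [eisZ_slash]
  exact isBoundedAtImInfty_eisZ (hx.smul γ)

/-- `E_{(0, a/M)}`, `a ∈ ℤ/M` -/
def eisA (M : ℕ) (a : ZMod M) : ℍ → ℂ := eisZ 0 ((a.val : ℝ) / M)

theorem nonInt_eisA {M : ℕ} [NeZero M] {a : ZMod M} (ha : a ≠ 0) :
    NonInt 0 ((a.val : ℝ) / M) := by
  rintro ⟨m, n, -, h2⟩
  have hM : (0 : ℝ) < M := Nat.cast_pos.mpr (NeZero.pos M)
  have h1 : 0 < a.val := Nat.pos_of_ne_zero (fun h => ha ((ZMod.val_eq_zero a).mp h))
  have h3 : a.val < M := ZMod.val_lt a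
  have h4 : (0 : ℝ) < (a.val : ℝ) / M := div_pos (Nat.cast_pos.mpr h1) hM
  have h5 : (a.val : ℝ) / M < 1 := by
    rw [div_lt_one hM]
    exact_mod_cast h3
  rw [h2] at h4 h5
  have h6 : (0 : ℤ) < n := by exact_mod_cast h4
  have h7 : n < (1 : ℤ) := by exact_mod_cast h5
  omega


theorem Gamma0_unit {M : ℕ} {γ : SL(2, ℤ)} (hγ : γ ∈ Gamma0 M) :
    ((γ 1 1 : ℤ) : ZMod M) * ((γ 0 0 : ℤ) : ZMod M) = 1 := by
  have h := γ.det_coe
  rw [Matrix.det_fin_two] at h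
  have h2 := congrArg (Int.cast : ℤ → ZMod M) h
  rw [Gamma0_mem] at hγ
  push_cast at h2
  rw [hγ, mul_zero, sub_zero] at h2
  rw [mul_comm]
  exact h2

theorem eisA_slash_Gamma0 {M : ℕ} [NeZero M] {a : ZMod M} (ha : a ≠ 0) {γ : SL(2, ℤ)}
    (hγ : γ ∈ Gamma0 M) :
    (eisA M a) ∣[(1 : ℤ)] γ = eisA M (a * ((γ 1 1 : ℤ) : ZMod M)) := by
  have hM : (M : ℝ) ≠ 0 := Nat.cast_ne_zero.mpr (NeZero.ne M)
  have hu := Gamma0_unit hγ
  have had : a * ((γ 1 1 : ℤ) : ZMod M) ≠ 0 := by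
    intro h
    apply ha
    have := congrArg (· * ((γ 0 0 : ℤ) : ZMod M)) h
    simpa [mul_assoc, hu] using this
  obtain ⟨c', hc'⟩ : (M : ℤ) ∣ γ 1 0 := (ZMod.intCast_zmod_eq_zero_iff_dvd _ _).mp (Gamma0_mem.mp hγ)
  obtain ⟨k, hk⟩ : (M : ℤ) ∣ (a.val : ℤ) * γ 1 1 - ((a * ((γ 1 1 : ℤ) : ZMod M)).val : ℤ) := by
    rw [← ZMod.intCast_eq_intCast_iff_dvd_sub]
    push_cast
    simp
  rw [eisA, eisA, eisZ_slash]
  have e1 : (0 : ℝ) * (γ 0 0 : ℝ) + (a.val : ℝ) / M * (γ 1 0 : ℝ) = 0 + ((a.val * c' : ℤ) : ℝ) := by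
    rw [hc']
    push_cast
    field_simp
    ring
  have e2 : (0 : ℝ) * (γ 0 1 : ℝ) + (a.val : ℝ) / M * (γ 1 1 : ℝ) =
      ((a * ((γ 1 1 : ℤ) : ZMod M)).val : ℝ) / M + ((k : ℤ) : ℝ) := by
    have hk' : ((a.val : ℤ) : ℝ) * (γ 1 1 : ℝ) - (((a * ((γ 1 1 : ℤ) : ZMod M)).val : ℤ) : ℝ) =
        (M : ℝ) * k := by exact_mod_cast congrArg (Int.cast : ℤ → ℝ) hk
    field_simp
    push_cast at hk'
    linear_combination hk'
  rw [e1, e2]
  ext z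
  exact eisZ_add_int (nonInt_eisA had) z _ _


/-- `∑_{a ≠ 0} c(a) E_{(0, a/M)}` -/
def eisLinFun (M : ℕ) [NeZero M] (c : ZMod M → ℂ) : ℍ → ℂ :=
  ∑ a ∈ Finset.univ.filter (fun a : ZMod M => a ≠ 0), c a • eisA M a

theorem eisLinFun_apply (M : ℕ) [NeZero M] (c : ZMod M → ℂ) (z : ℍ) :
    eisLinFun M c z = ∑ a ∈ Finset.univ.filter (fun a : ZMod M => a ≠ 0), c a * eisA M a z := by
  simp [eisLinFun, Finset.sum_apply]

/-- the action of `Γ0(M)` on the span of the `E_{(0, a/M)}` -/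
theorem eisLinFun_slash_Gamma0 {M : ℕ} [NeZero M] (c : ZMod M → ℂ) {γ : SL(2, ℤ)}
    (hγ : γ ∈ Gamma0 M) :
    (eisLinFun M c) ∣[(1 : ℤ)] γ = eisLinFun M (fun a => c (a * ((γ 0 0 : ℤ) : ZMod M))) := by
  have hu := Gamma0_unit hγ
  rw [eisLinFun, eisLinFun, SlashAction.sum_slash]
  refine Finset.sum_nbij' (fun a => a * ((γ 1 1 : ℤ) : ZMod M)) (fun a => a * ((γ 0 0 : ℤ) : ZMod M))
    ?_ ?_ ?_ ?_ ?_
  · intro a ha
    simp only [Finset.mem_filter, Finset.mem_univ, true_and] at ha ⊢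
    intro h
    apply ha
    have := congrArg (· * ((γ 0 0 : ℤ) : ZMod M)) h
    simpa [mul_assoc, hu] using this
  · intro a ha
    simp only [Finset.mem_filter, Finset.mem_univ, true_and] at ha ⊢
    intro h
    apply ha
    have := congrArg (· * ((γ 1 1 : ℤ) : ZMod M)) h
    simpa [mul_assoc, mul_comm (((γ 0 0 : ℤ) : ZMod M)), hu] using this
  · intro a _
    simp [mul_assoc, hu]
  · intro a _
    simp [mul_assoc, mul_comm (((γ 0 0 : ℤ) : ZMod M)), hu]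
  · intro a ha
    simp only [Finset.mem_filter, Finset.mem_univ, true_and] at ha
    rw [SL_smul_slash, eisA_slash_Gamma0 ha hγ, mul_assoc, hu, mul_one]

theorem eisLinFun_slash_Gamma1 {M : ℕ} [NeZero M] (c : ZMod M → ℂ) {γ : SL(2, ℤ)}
    (hγ : γ ∈ Gamma1 M) : (eisLinFun M c) ∣[(1 : ℤ)] γ = eisLinFun M c := by
  rw [eisLinFun_slash_Gamma0 c (Gamma1_in_Gamma0 M hγ)]
  have h := ((Gamma1_mem M γ).mp hγ).1
  simp [h]

theorem mdifferentiable_eisLinFun (M : ℕ) [NeZero M] (c : ZMod M → ℂ) : MDiff (eisLinFun M c) := by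
  rw [eisLinFun]
  apply Finset.sum_induction _ (fun f : ℍ → ℂ => MDiff f)
  · intro f g hf hg
    exact hf.add hg
  · exact mdifferentiable_const
  · intro a ha
    simp only [Finset.mem_filter, Finset.mem_univ, true_and] at ha
    exact (mdifferentiable_eisZ (nonInt_eisA ha)).const_smul (c a)

theorem isBoundedAtImInfty_eisLinFun_slash (M : ℕ) [NeZero M] (c : ZMod M → ℂ) (γ : SL(2, ℤ)) :
    IsBoundedAtImInfty ((eisLinFun M c) ∣[(1 : ℤ)] γ) := by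
  rw [eisLinFun, SlashAction.sum_slash]
  apply Finset.sum_induction _ (fun f : ℍ → ℂ => IsBoundedAtImInfty f)
  · intro f g hf hg
    exact hf.add hg
  · exact Filter.const_boundedAtFilter _ (0 : ℂ)
  · intro a ha
    simp only [Finset.mem_filter, Finset.mem_univ, true_and] at ha
    rw [SL_smul_slash]
    exact (isBoundedAtImInfty_eisZ_slash (nonInt_eisA ha) γ).smul (c a)


/-- **the weight one modular form `∑_{a ≠ 0} c(a) E_{(0, a/M)}` on `Γ1(M)`** -/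
def eisLin (M : ℕ) [NeZero M] (c : ZMod M → ℂ) : ModularForm (Gamma1 M) 1 where
  toFun := eisLinFun M c
  slash_action_eq' A hA := by
    obtain ⟨A, (hA : A ∈ Gamma1 M), rfl⟩ := hA
    exact eisLinFun_slash_Gamma1 c hA
  holo' := mdifferentiable_eisLinFun M c
  bdd_at_cusps' {c'} hc := by
    rw [Subgroup.IsArithmetic.isCusp_iff_isCusp_SL2Z] at hc
    rw [OnePoint.isBoundedAt_iff_forall_SL2Z hc]
    exact fun γ _ ↦ isBoundedAtImInfty_eisLinFun_slash M c γ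

theorem eisLin_apply (M : ℕ) [NeZero M] (c : ZMod M → ℂ) (z : ℍ) :
    eisLin M c z = ∑ a ∈ Finset.univ.filter (fun a : ZMod M => a ≠ 0), c a * eisA M a z :=
  eisLinFun_apply M c z

theorem coe_eisLin (M : ℕ) [NeZero M] (c : ZMod M → ℂ) : ⇑(eisLin M c) = eisLinFun M c := rfl

/-- nebentypus: the action of `Γ0(M)` -/
theorem eisLin_slash_Gamma0 {M : ℕ} [NeZero M] (c : ZMod M → ℂ) {γ : SL(2, ℤ)}
    (hγ : γ ∈ Gamma0 M) :
    (⇑(eisLin M c)) ∣[(1 : ℤ)] γ = ⇑(eisLin M (fun a => c (a * ((γ 0 0 : ℤ) : ZMod M)))) :=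
  eisLinFun_slash_Gamma0 c hγ

end Fermat.Agent.DS.Eis1
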