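/-
S48 prep / (N5) (helper86): the `q`-expansion of the weight one Eisenstein series `E_{(0, t)}` and of
the modular forms `eisLin M c` on `Γ1(M)`:

  `E_{(0,t)} = π cot(π t) + 2πi ∑_{n ≥ 1} (∑_{k ∣ n} (e(-k t) - e(k t))) qⁿ`.

`tsum_lambert`: the Lambert rearrangement `∑_{d, c} f(c) r^{d c} = ∑_n (∑_{k ∣ n} f k) rⁿ` for a bounded `f`.
-/
import Fermat.Agent.DS.Eis1.EisMF
set_option autoImplicit false
noncomputable section
namespace Fermat.Agent.DS.Eis1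
open UpperHalfPlane hiding I
open EisensteinSeries Complex Filter Topology Asymptotics ModularForm CongruenceSubgroup
open scoped MatrixGroups Real Manifold

theorem summable_lambert {f : ℕ → ℂ} {C : ℝ} (hf : ∀ k, ‖f k‖ ≤ C) {r : ℂ} (hr : ‖r‖ < 1) :
    Summable fun c : ℕ+ × ℕ+ => f c.2 * r ^ (c.1 * c.2 : ℕ) := by
  have h := (summable_prod_mul_pow 0 (r := ‖r‖) (by simpa using hr)).mul_left C
  refine Summable.of_norm_bounded h fun c => ?_
  rw [norm_mul, norm_pow]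
  simp only [pow_zero, one_mul]
  exact mul_le_mul_of_nonneg_right (hf _) (by positivity)

theorem summable_lambert_sigma {f : ℕ → ℂ} {C : ℝ} (hf : ∀ k, ‖f k‖ ≤ C) {r : ℂ} (hr : ‖r‖ < 1) :
    Summable (fun c : (Σ n : ℕ+, (n : ℕ).divisorsAntidiagonal) =>
      f ↑(sigmaAntidiagonalEquivProd c).2 *
        r ^ ((sigmaAntidiagonalEquivProd c).1 * (sigmaAntidiagonalEquivProd c).2 : ℕ)) :=
  sigmaAntidiagonalEquivProd.summable_iff.mpr (summable_lambert hf hr)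

theorem lambert_inner {f : ℕ → ℂ} {r : ℂ} (n : ℕ+) :
    ∑' (c : (n : ℕ).divisorsAntidiagonal), f ↑(sigmaAntidiagonalEquivProd ⟨n, c⟩).2 *
        r ^ ((sigmaAntidiagonalEquivProd ⟨n, c⟩).1 * (sigmaAntidiagonalEquivProd ⟨n, c⟩).2 : ℕ) =
      (∑ k ∈ (n : ℕ).divisors, f k) * r ^ (n : ℕ) := by
  rw [tsum_fintype, Finset.univ_eq_attach]
  simp only [sigmaAntidiagonalEquivProd, divisorsAntidiagonalFactors, Equiv.coe_fn_mk, PNat.mk_coe]
  rw [(n : ℕ).divisorsAntidiagonal.sum_attach (fun x : ℕ × ℕ => f x.2 * r ^ (x.1 * x.2))]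
  rw [Finset.sum_mul, ← Nat.sum_divisorsAntidiagonal' (fun x y => f y * r ^ (n : ℕ))]
  refine Finset.sum_congr rfl fun x hx => ?_
  rw [(Nat.mem_divisorsAntidiagonal.mp hx).1]

theorem tsum_lambert {f : ℕ → ℂ} {C : ℝ} (hf : ∀ k, ‖f k‖ ≤ C) {r : ℂ} (hr : ‖r‖ < 1) :
    ∑' c : ℕ+ × ℕ+, f c.2 * r ^ (c.1 * c.2 : ℕ) =
      ∑' n : ℕ+, (∑ k ∈ (n : ℕ).divisors, f k) * r ^ (n : ℕ) := by
  rw [← sigmaAntidiagonalEquivProd.tsum_eq, (summable_lambert_sigma hf hr).tsum_sigma]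
  exact tsum_congr fun n => lambert_inner n

theorem summable_lambert_divisors {f : ℕ → ℂ} {C : ℝ} (hf : ∀ k, ‖f k‖ ≤ C) {r : ℂ}
    (hr : ‖r‖ < 1) :
    Summable fun n : ℕ+ => (∑ k ∈ (n : ℕ).divisors, f k) * r ^ (n : ℕ) := by
  have h := (summable_lambert_sigma hf hr).sigma
  refine h.congr fun n => ?_
  exact lambert_inner n


theorem gq_eq_tsum {v : ℂ} (hv : ‖ee v‖ < 1) : gq v = ∑' k : ℕ+, ee v ^ (k : ℕ) := by
  rw [tsum_pnat_eq_tsum_succ (f := fun k => ee v ^ k)]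
  simp only [pow_succ]
  rw [tsum_mul_right, tsum_geometric_of_norm_lt_one hv, gq]
  field_simp

theorem ee_nat_mul (n : ℕ) (w : ℂ) : ee ((n : ℂ) * w) = ee w ^ n := by
  rw [ee, ee, ← Complex.exp_nat_mul]
  congr 1
  ring

theorem ee_neg (w : ℂ) : ee (-w) = (ee w)⁻¹ := by
  rw [ee, ee, ← Complex.exp_neg]
  congr 1
  ring

theorem norm_ee_ofReal (t : ℝ) : ‖ee (t : ℂ)‖ = 1 := by
  rw [norm_ee]
  simp

/-- the coefficient function `2πi (e(-k t) - e(k t))` -/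
def lamF (t : ℝ) (k : ℕ) : ℂ := 2 * π * I * (ee (-(t : ℂ)) ^ k - ee (t : ℂ) ^ k)

theorem norm_lamF_le (t : ℝ) (k : ℕ) : ‖lamF t k‖ ≤ 4 * π := by
  have hpi := Real.pi_pos
  rw [lamF, norm_mul]
  have h1 : ‖(2 : ℂ) * π * I‖ = 2 * π := by simp [abs_of_pos hpi]
  have h2 : ‖ee (-(t : ℂ)) ^ k - ee (t : ℂ) ^ k‖ ≤ 2 := by
    refine (norm_sub_le _ _).trans ?_
    rw [norm_pow, norm_pow, ee_neg, norm_inv, norm_ee_ofReal]
    norm_num
  rw [h1]
  nlinarith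

theorem norm_ee_coe_lt_one (z : ℍ) : ‖ee (z : ℂ)‖ < 1 := by
  rw [norm_ee, Real.exp_lt_one_iff]
  have := Real.pi_pos
  have := z.im_pos
  have h : (z : ℂ).im = z.im := rfl
  rw [h]
  nlinarith

theorem pairFn_zero_eq_tsum (t : ℝ) (m : ℕ) (z : ℍ) :
    pairFn 0 t m z = ∑' k : ℕ+, lamF t k * ee (z : ℂ) ^ ((m + 1) * k : ℕ) := by
  have hq := norm_ee_coe_lt_one z
  have hq0 : 0 ≤ ‖ee (z : ℂ)‖ := norm_nonneg _
  have hqm : ‖ee (z : ℂ)‖ ^ (m + 1) < 1 := pow_lt_one₀ hq0 hq (Nat.succ_ne_zero m)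
  have e1 : ee (((m : ℂ) + 1) * (z : ℂ) - (((0 : ℝ) : ℂ) * z + t)) =
      ee (z : ℂ) ^ (m + 1) * ee (-(t : ℂ)) := by
    rw [← ee_nat_mul, ← ee_add]
    congr 1
    push_cast
    ring
  have e2 : ee (((m : ℂ) + 1) * (z : ℂ) + (((0 : ℝ) : ℂ) * z + t)) =
      ee (z : ℂ) ^ (m + 1) * ee (t : ℂ) := by
    rw [← ee_nat_mul, ← ee_add]
    congr 1
    push_cast
    ring
  have n1 : ‖ee (((m : ℂ) + 1) * (z : ℂ) - (((0 : ℝ) : ℂ) * z + t))‖ < 1 := by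
    rw [e1, norm_mul, norm_pow, ee_neg, norm_inv, norm_ee_ofReal]
    simpa using hqm
  have n2 : ‖ee (((m : ℂ) + 1) * (z : ℂ) + (((0 : ℝ) : ℂ) * z + t))‖ < 1 := by
    rw [e2, norm_mul, norm_pow, norm_ee_ofReal]
    simpa using hqm
  have s1 : Summable fun k : ℕ+ => ee (((m : ℂ) + 1) * (z : ℂ) - (((0 : ℝ) : ℂ) * z + t)) ^ (k : ℕ) :=
    (summable_geometric_of_norm_lt_one n1).subtype _
  have s2 : Summable fun k : ℕ+ => ee (((m : ℂ) + 1) * (z : ℂ) + (((0 : ℝ) : ℂ) * z + t)) ^ (k : ℕ) :=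
    (summable_geometric_of_norm_lt_one n2).subtype _
  rw [pairFn, gq_eq_tsum n1, gq_eq_tsum n2, ← s1.tsum_sub s2, ← tsum_mul_left]
  refine tsum_congr fun k => ?_
  rw [e1, e2, lamF, mul_pow, mul_pow, ← pow_mul]
  ring


theorem tsum_pairFn_zero (t : ℝ) (z : ℍ) :
    ∑' m : ℕ, pairFn 0 t m z =
      ∑' n : ℕ+, (∑ k ∈ (n : ℕ).divisors, lamF t k) * ee (z : ℂ) ^ (n : ℕ) := by
  have hq := norm_ee_coe_lt_one z
  have hs := summable_lambert (norm_lamF_le t) hq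
  rw [← tsum_lambert (norm_lamF_le t) hq, hs.tsum_prod,
    tsum_pnat_eq_tsum_succ (f := fun d => ∑' k : ℕ+, lamF t k * ee (z : ℂ) ^ (d * k : ℕ))]
  exact tsum_congr fun m => pairFn_zero_eq_tsum t m z

/-- the `q`-expansion coefficients of `E_{(0, t)}` -/
def coeffA (t : ℝ) (n : ℕ) : ℂ :=
  if n = 0 then π * cot (π * t) else ∑ k ∈ n.divisors, lamF t k

/-- **the `q`-expansion of `E_{(0, t)}`**, `t ∈ ℝ ∖ ℤ` -/
theorem hasSum_eisZ_zero {t : ℝ} (ht : NonInt 0 t) (z : ℍ) :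
    HasSum (fun n : ℕ => coeffA t n * ee (z : ℂ) ^ n) (eisZ 0 t z) := by
  have hq := norm_ee_coe_lt_one z
  have hS := summable_lambert_divisors (norm_lamF_le t) hq
  rw [summable_pnat_iff_summable_succ
    (f := fun n => (∑ k ∈ n.divisors, lamF t k) * ee (z : ℂ) ^ n)] at hS
  have h1 := hS.hasSum
  rw [← tsum_pnat_eq_tsum_succ (f := fun n => (∑ k ∈ n.divisors, lamF t k) * ee (z : ℂ) ^ n),
    ← tsum_pairFn_zero] at h1
  have h2 : HasSum (fun n : ℕ => coeffA t (n + 1) * ee (z : ℂ) ^ (n + 1))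
      (eisZ 0 t z - ∑ i ∈ Finset.range 1, coeffA t i * ee (z : ℂ) ^ i) := by
    have e : (fun n : ℕ => coeffA t (n + 1) * ee (z : ℂ) ^ (n + 1)) =
        fun x => (∑ k ∈ (x + 1).divisors, lamF t k) * ee (z : ℂ) ^ (x + 1) := by
      funext n
      simp [coeffA]
    have e2 : eisZ 0 t z - ∑ i ∈ Finset.range 1, coeffA t i * ee (z : ℂ) ^ i =
        ∑' m : ℕ, pairFn 0 t m z := by
      rw [eisZ_eq_tsum ht le_rfl one_pos]
      simp [coeffA, upt]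
    rw [e, e2]
    exact h1
  exact (hasSum_nat_add_iff' 1).mp h2


theorem qParam_one_eq_ee (w : ℂ) : Function.Periodic.qParam 1 w = ee w := by
  rw [Function.Periodic.qParam, ee]
  simp

/-- the `q`-expansion coefficients of `eisLin M c` -/
def coeffLin (M : ℕ) [NeZero M] (c : ZMod M → ℂ) (n : ℕ) : ℂ :=
  ∑ a ∈ Finset.univ.filter (fun a : ZMod M => a ≠ 0), c a * coeffA ((a.val : ℝ) / M) n

theorem hasSum_eisLin (M : ℕ) [NeZero M] (c : ZMod M → ℂ) (z : ℍ) :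
    HasSum (fun n : ℕ => coeffLin M c n • Function.Periodic.qParam 1 (z : ℂ) ^ n) (eisLin M c z) := by
  rw [eisLin_apply]
  simp only [coeffLin, smul_eq_mul, Finset.sum_mul, qParam_one_eq_ee]
  apply hasSum_sum
  intro a ha
  simp only [Finset.mem_filter, Finset.mem_univ, true_and] at ha
  simp only [mul_assoc]
  exact (hasSum_eisZ_zero (nonInt_eisA ha) z).mul_left (c a)

/-- **the `q`-expansion of `eisLin M c`** -/
theorem qExpansion_eisLin (M : ℕ) [NeZero M] (c : ZMod M → ℂ) (n : ℕ) :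
    (qExpansion 1 (eisLin M c)).coeff n = coeffLin M c n := by
  have h1 : (1 : ℝ) ∈ ((Gamma1 M : Subgroup (GL (Fin 2) ℝ))).strictPeriods := by
    rw [CongruenceSubgroup.strictPeriods_Gamma1]
    exact AddSubgroup.mem_zmultiples 1
  exact (ModularFormClass.qExpansion_coeff_unique one_pos h1
    (f := eisLin M c) (c := coeffLin M c) (fun τ => hasSum_eisLin M c τ) n).symm

end Fermat.Agent.DS.Eis1
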