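/-
S48 prep / (N5) (helper86): the weight one Eisenstein series with character on `Γ1(M)`.

For a Dirichlet character `χ` modulo `M` (any `M`, not only primes), `χ(-1) = -1`:

* `eisChi χ : ModularForm (Gamma1 M) 1` with `q`-expansion `-B_{1,χ}/2 + ∑_{n ≥ 1} (∑_{d ∣ n} χ(d)) qⁿ`
  (`qExpansion_eisChi_zero`, `qExpansion_eisChi_pos`), `B_{1,χ} = (1/M) ∑_b χ(b) b` (`bernoulliOne`);
* `eisChi_slash_Gamma0`: nebentypus `E ∣[1] γ = χ(γ₁₁) • E` for `γ ∈ Γ0(M)`;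
* `eisNorm χ`: the same form normalised to constant term `1`:
  `1 - (2/B_{1,χ}) ∑_{n ≥ 1} (∑_{d ∣ n} χ(d)) qⁿ`.

Uses helper52's finite cotangent sum (`CotSum.cotSum_dirichlet`) for the constant term and Mathlib's
discrete Fourier transform on `ZMod M` for the higher coefficients.
-/
import Fermat.Agent.DS.Eis1.EisQ
import Fermat.Agent.DS.Eis1.CotSum
set_option autoImplicit false
noncomputable section
namespace Fermat.Agent.DS.Eis1
open UpperHalfPlane hiding I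
open EisensteinSeries Complex Filter Topology Asymptotics ModularForm CongruenceSubgroup
open scoped MatrixGroups Real Manifold ZMod

variable {M : ℕ} [NeZero M]

theorem ee_val_div (a : ZMod M) : ee (((a.val : ℝ) / (M : ℝ) : ℝ) : ℂ) = ZMod.stdAddChar a := by
  have h := ZMod.stdAddChar_coe (N := M) (a.val : ℤ)
  rw [Int.cast_natCast, ZMod.natCast_zmod_val] at h
  rw [h, ee]
  congr 1
  push_cast
  ring

theorem lamF_val_div (a : ZMod M) (k : ℕ) :
    lamF ((a.val : ℝ) / (M : ℝ)) k =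
      2 * π * I * (ZMod.stdAddChar (-(a * (k : ZMod M))) - ZMod.stdAddChar (a * (k : ZMod M))) := by
  rw [lamF]
  rw [ee_neg, ee_val_div, inv_pow, ← AddChar.map_nsmul_eq_pow, ← AddChar.map_neg_eq_inv]
  simp [mul_comm]

/-- Fourier inversion -/
theorem sum_dft_mul_stdAddChar (Φ : ZMod M → ℂ) (k : ZMod M) :
    ∑ a : ZMod M, ((1 / (M : ℂ)) * 𝓕 Φ a) * ZMod.stdAddChar (a * k) = Φ k := by
  have h := ZMod.invDFT_apply (𝓕 Φ) k
  rw [LinearEquiv.symm_apply_apply] at h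
  rw [h, smul_eq_mul, Finset.mul_sum]
  refine Finset.sum_congr rfl fun a _ => ?_
  rw [smul_eq_mul]
  ring


/-- the Fourier coefficients `c_χ(a) = (1/M) ∑_b χ(b) ζ^{-ab}` -/
def chiCoeff (χ : DirichletCharacter ℂ M) (a : ZMod M) : ℂ :=
  (1 / (M : ℂ)) * 𝓕 (χ : ZMod M → ℂ) a

/-- the generalised Bernoulli number `B_{1,χ} = (1/M) ∑_b χ(b) b` -/
def bernoulliOne (χ : DirichletCharacter ℂ M) : ℂ :=
  (1 / (M : ℂ)) * ∑ b : ZMod M, χ b * (b.val : ℂ)

theorem sum_filter_ne_zero_eq {f : ZMod M → ℂ} (h0 : f 0 = 0) :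
    ∑ a ∈ Finset.univ.filter (fun a : ZMod M => a ≠ 0), f a = ∑ a : ZMod M, f a := by
  apply Finset.sum_filter_of_ne
  intro a _ ha h
  apply ha
  rw [h, h0]

theorem coeffLin_chiCoeff_zero (χ : DirichletCharacter ℂ M) (hχ : χ ≠ 1) :
    coeffLin M (chiCoeff χ) 0 = 2 * π * I * bernoulliOne χ := by
  rw [coeffLin, sum_filter_ne_zero_eq (by simp [coeffA, Complex.cot_eq_cos_div_sin]), bernoulliOne,
    ← CotSum.cotSum_dirichlet χ hχ]
  refine Finset.sum_congr rfl fun a _ => ?_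
  rw [chiCoeff, coeffA, if_pos rfl]
  push_cast
  rw [mul_div_assoc]

theorem coeffLin_chiCoeff_pos (χ : DirichletCharacter ℂ M) (hodd : χ (-1) = -1) {n : ℕ}
    (hn : n ≠ 0) :
    coeffLin M (chiCoeff χ) n = -(4 * π * I) * ∑ d ∈ n.divisors, χ (d : ZMod M) := by
  rw [coeffLin, sum_filter_ne_zero_eq (by simp [coeffA, hn, lamF])]
  simp only [coeffA, if_neg hn, Finset.mul_sum]
  rw [Finset.sum_comm]
  refine Finset.sum_congr rfl fun k _ => ?_
  simp only [lamF_val_div]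
  have h1 := sum_dft_mul_stdAddChar (χ : ZMod M → ℂ) (k : ZMod M)
  have h2 := sum_dft_mul_stdAddChar (χ : ZMod M → ℂ) (-(k : ZMod M))
  have h3 : χ (-(k : ZMod M)) = -χ (k : ZMod M) := by
    rw [← neg_one_mul, map_mul, hodd, neg_one_mul]
  rw [h3] at h2
  have e : ∀ a : ZMod M, chiCoeff χ a * (2 * π * I * (ZMod.stdAddChar (-(a * (k : ZMod M))) -
      ZMod.stdAddChar (a * (k : ZMod M)))) =
      2 * π * I * ((1 / (M : ℂ)) * 𝓕 (χ : ZMod M → ℂ) a * ZMod.stdAddChar (a * -(k : ZMod M)) -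
        (1 / (M : ℂ)) * 𝓕 (χ : ZMod M → ℂ) a * ZMod.stdAddChar (a * (k : ZMod M))) := by
    intro a
    rw [chiCoeff, mul_neg]
    ring
  rw [Finset.sum_congr rfl (fun a _ => e a), ← Finset.mul_sum, Finset.sum_sub_distrib, h1, h2]
  ring


theorem coeffLin_const_mul (r : ℂ) (c : ZMod M → ℂ) (n : ℕ) :
    coeffLin M (fun a => r * c a) n = r * coeffLin M c n := by
  simp only [coeffLin, Finset.mul_sum, mul_assoc]

theorem eisLinFun_const_mul (r : ℂ) (c : ZMod M → ℂ) :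
    eisLinFun M (fun a => r * c a) = r • eisLinFun M c := by
  simp only [eisLinFun, Finset.smul_sum, mul_smul]

/-- the Fourier coefficients of `χ` are a `χ`-eigenvector for multiplication by units -/
theorem chiCoeff_mul_unit (χ : DirichletCharacter ℂ M) {u v : ZMod M} (huv : v * u = 1) (a : ZMod M) :
    chiCoeff χ (a * u) = χ v * chiCoeff χ a := by
  let w : (ZMod M)ˣ := ⟨v, u, huv, by rw [mul_comm]; exact huv⟩
  have h := ZMod.dft_comp_unitMul (χ : ZMod M → ℂ) w a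
  have h2 : (fun j : ZMod M => χ (w.val * j)) = χ v • (χ : ZMod M → ℂ) := by
    funext j
    simp [w, map_mul]
  rw [h2, map_smul] at h
  have h3 : (w⁻¹ : (ZMod M)ˣ).val = u := rfl
  rw [h3] at h
  rw [chiCoeff, chiCoeff, mul_comm a u, ← h]
  simp only [Pi.smul_apply, smul_eq_mul]
  ring

/-- **the weight one Eisenstein series `E_{1,χ}`** on `Γ1(M)`:
`E_{1,χ} = -B_{1,χ}/2 + ∑_{n ≥ 1} (∑_{d ∣ n} χ(d)) qⁿ` for `χ` odd -/
def eisChi (χ : DirichletCharacter ℂ M) : ModularForm (Gamma1 M) 1 :=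
  eisLin M (fun a => (-(4 * π * I))⁻¹ * chiCoeff χ a)

theorem four_pi_I_ne_zero : -(4 * (π : ℂ) * I) ≠ 0 := by
  have : (π : ℂ) ≠ 0 := by exact_mod_cast Real.pi_ne_zero
  simp [this]

theorem qExpansion_eisChi_zero (χ : DirichletCharacter ℂ M) (hχ : χ ≠ 1) :
    (qExpansion 1 (eisChi χ)).coeff 0 = -bernoulliOne χ / 2 := by
  rw [eisChi, qExpansion_eisLin, coeffLin_const_mul, coeffLin_chiCoeff_zero χ hχ]
  have := four_pi_I_ne_zero
  field_simp
  ring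

theorem qExpansion_eisChi_pos (χ : DirichletCharacter ℂ M) (hodd : χ (-1) = -1) {n : ℕ}
    (hn : n ≠ 0) :
    (qExpansion 1 (eisChi χ)).coeff n = ∑ d ∈ n.divisors, χ (d : ZMod M) := by
  rw [eisChi, qExpansion_eisLin, coeffLin_const_mul, coeffLin_chiCoeff_pos χ hodd hn,
    inv_mul_cancel_left₀ four_pi_I_ne_zero]

/-- **nebentypus of `E_{1,χ}`** -/
theorem eisChi_slash_Gamma0 (χ : DirichletCharacter ℂ M) {γ : SL(2, ℤ)} (hγ : γ ∈ Gamma0 M) :
    (⇑(eisChi χ)) ∣[(1 : ℤ)] γ = χ ((γ 1 1 : ℤ) : ZMod M) • ⇑(eisChi χ) := by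
  rw [eisChi, eisLin_slash_Gamma0 _ hγ, coe_eisLin, coe_eisLin, ← eisLinFun_const_mul]
  congr 1
  funext a
  rw [chiCoeff_mul_unit χ (Gamma0_unit hγ)]
  ring


/-- **the normalised weight one Eisenstein series** on `Γ1(M)`:
`G_χ = 1 - (2/B_{1,χ}) ∑_{n ≥ 1} (∑_{d ∣ n} χ(d)) qⁿ` for `χ` odd with `B_{1,χ} ≠ 0` -/
def eisNorm (χ : DirichletCharacter ℂ M) : ModularForm (Gamma1 M) 1 :=
  eisLin M (fun a => (2 * π * I * bernoulliOne χ)⁻¹ * chiCoeff χ a)

theorem two_pi_I_ne_zero' : 2 * (π : ℂ) * I ≠ 0 := by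
  have : (π : ℂ) ≠ 0 := by exact_mod_cast Real.pi_ne_zero
  simp [this]

theorem qExpansion_eisNorm_zero (χ : DirichletCharacter ℂ M) (hχ : χ ≠ 1)
    (hB : bernoulliOne χ ≠ 0) : (qExpansion 1 (eisNorm χ)).coeff 0 = 1 := by
  rw [eisNorm, qExpansion_eisLin, coeffLin_const_mul, coeffLin_chiCoeff_zero χ hχ]
  exact inv_mul_cancel₀ (mul_ne_zero two_pi_I_ne_zero' hB)

theorem qExpansion_eisNorm_pos (χ : DirichletCharacter ℂ M) (hodd : χ (-1) = -1)
    (hB : bernoulliOne χ ≠ 0) {n : ℕ} (hn : n ≠ 0) :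
    (qExpansion 1 (eisNorm χ)).coeff n =
      (-2 / bernoulliOne χ) * ∑ d ∈ n.divisors, χ (d : ZMod M) := by
  rw [eisNorm, qExpansion_eisLin, coeffLin_const_mul, coeffLin_chiCoeff_pos χ hodd hn]
  have := two_pi_I_ne_zero'
  have hpi : (π : ℂ) ≠ 0 := by exact_mod_cast Real.pi_ne_zero
  have hI : I ≠ 0 := I_ne_zero
  field_simp
  ring

theorem eisNorm_slash_Gamma0 (χ : DirichletCharacter ℂ M) {γ : SL(2, ℤ)} (hγ : γ ∈ Gamma0 M) :
    (⇑(eisNorm χ)) ∣[(1 : ℤ)] γ = χ ((γ 1 1 : ℤ) : ZMod M) • ⇑(eisNorm χ) := by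
  rw [eisNorm, eisLin_slash_Gamma0 _ hγ, coe_eisLin, coe_eisLin, ← eisLinFun_const_mul]
  congr 1
  funext a
  rw [chiCoeff_mul_unit χ (Gamma0_unit hγ)]
  ring

/-- `-2 / B_{1,χ} = -2M / ∑_b χ(b) b` -/
theorem neg_two_div_bernoulliOne (χ : DirichletCharacter ℂ M) :
    -2 / bernoulliOne χ = -2 * (M : ℂ) / ∑ b : ZMod M, χ b * (b.val : ℂ) := by
  have hM : (M : ℂ) ≠ 0 := Nat.cast_ne_zero.mpr (NeZero.ne M)
  rw [bernoulliOne]
  by_cases h : ∑ b : ZMod M, χ b * (b.val : ℂ) = 0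
  · rw [h, mul_zero, div_zero, div_zero]
  · field_simp

/-- the sum `∑_b χ(b) b` as a sum over units -/
theorem sum_chi_mul_val_eq_sum_units (χ : DirichletCharacter ℂ M) :
    ∑ b : ZMod M, χ b * (b.val : ℂ) = ∑ u : (ZMod M)ˣ, χ (u : ZMod M) * (((u : ZMod M)).val : ℂ) := by
  classical
  rw [← Finset.sum_filter_of_ne (p := fun b : ZMod M => IsUnit b)]
  · refine (Finset.sum_bij (fun (u : (ZMod M)ˣ) _ => (u : ZMod M)) ?_ ?_ ?_ ?_).symm
    · intro u _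
      simp
    · intro u _ v _ h
      exact Units.ext h
    · intro b hb
      simp only [Finset.mem_filter, Finset.mem_univ, true_and] at hb
      exact ⟨hb.unit, Finset.mem_univ _, rfl⟩
    · intro u _
      rfl
  · intro b _ hb
    by_contra h
    apply hb
    rw [MulChar.map_nonunit χ h, zero_mul]

end Fermat.Agent.DS.Eis1
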